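import Mathlib

set_option autoImplicit false

/-!
Elements of `SL(2, ℤ)` with `trace ^ 2 = 4` are conjugate to `± T ^ m`.
-/

open scoped MatrixGroups
open ModularGroup UpperHalfPlane

namespace Fermat.Agent.S21

/-- An upper triangular element of `SL(2, ℤ)` is `± T ^ m`. -/
theorem upper_eq_T_zpow (A : SL(2, ℤ)) (h : A 1 0 = 0) : ∃ m : ℤ, A = T ^ m ∨ A = -T ^ m := by
  have hdet : A 0 0 * A 1 1 - A 0 1 * A 1 0 = 1 := by
    have := A.det_coe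
    rwa [Matrix.det_fin_two] at this
  rw [h, mul_zero, sub_zero] at hdet
  rcases Int.eq_one_or_neg_one_of_mul_eq_one' hdet with ⟨h0, h1⟩ | ⟨h0, h1⟩
  · refine ⟨A 0 1, Or.inl ?_⟩
    ext i j
    fin_cases i <;> fin_cases j <;> simp [ModularGroup.coe_T_zpow, h0, h1, h]
  · refine ⟨-A 0 1, Or.inr ?_⟩
    ext i j
    fin_cases i <;> fin_cases j <;> simp [ModularGroup.coe_T_zpow, h0, h1, h]

/-- An element of `SL(2, ℤ)` with `trace ^ 2 = 4` is conjugate to an upper triangular one. -/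
theorem exists_conj_upper (γ : SL(2, ℤ)) (htr : γ.1.trace ^ 2 = 4) :
    ∃ δ : SL(2, ℤ), (δ⁻¹ * γ * δ) 1 0 = 0 := by
  have hdet : γ 0 0 * γ 1 1 - γ 0 1 * γ 1 0 = 1 := by
    have := γ.det_coe
    rwa [Matrix.det_fin_two] at this
  have htr' : (γ 0 0 + γ 1 1) ^ 2 = 4 := by
    rwa [Matrix.trace_fin_two] at htr
  by_cases hc : γ 1 0 = 0
  · exact ⟨1, by simpa using hc⟩
  · set g : ℕ := Int.gcd (γ 0 0 - γ 1 1) (2 * γ 1 0) with hg_def
    have hg : 0 < g := Int.gcd_pos_of_ne_zero_right _ (by simpa using hc)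
    have hgne : (g : ℤ) ≠ 0 := by exact_mod_cast hg.ne'
    set x : ℤ := (γ 0 0 - γ 1 1) / g with hx_def
    set y : ℤ := (2 * γ 1 0) / g with hy_def
    have hx : (g : ℤ) * x = γ 0 0 - γ 1 1 := Int.mul_ediv_cancel' (Int.gcd_dvd_left _ _)
    have hy : (g : ℤ) * y = 2 * γ 1 0 := Int.mul_ediv_cancel' (Int.gcd_dvd_right _ _)
    have hcop : IsCoprime x y := Int.isCoprime_iff_gcd_eq_one.mpr (Int.gcd_div_gcd_div_gcd hg)
    obtain ⟨u, v, huv⟩ := hcop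
    have key : γ 1 0 * x ^ 2 + (γ 1 1 - γ 0 0) * x * y - γ 0 1 * y ^ 2 = 0 := by
      have h1 : (g : ℤ) ^ 2 * (γ 1 0 * x ^ 2 + (γ 1 1 - γ 0 0) * x * y - γ 0 1 * y ^ 2) = 0 := by
        have h2 : (g : ℤ) ^ 2 * (γ 1 0 * x ^ 2 + (γ 1 1 - γ 0 0) * x * y - γ 0 1 * y ^ 2)
            = γ 1 0 * ((g : ℤ) * x) ^ 2 + (γ 1 1 - γ 0 0) * ((g : ℤ) * x) * ((g : ℤ) * y)
              - γ 0 1 * ((g : ℤ) * y) ^ 2 := by ring
        rw [h2, hx, hy]
        linear_combination (-(γ 1 0)) * htr' + 4 * γ 1 0 * hdet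
      rcases mul_eq_zero.mp h1 with h3 | h3
      · exact absurd ((pow_eq_zero_iff two_ne_zero).mp h3) hgne
      · exact h3
    have hdetδ : (!![x, -v; y, u] : Matrix (Fin 2) (Fin 2) ℤ).det = 1 := by
      rw [Matrix.det_fin_two_of]; linarith
    let δ : SL(2, ℤ) := ⟨!![x, -v; y, u], hdetδ⟩
    refine ⟨δ, ?_⟩
    rw [Matrix.SpecialLinearGroup.coe_mul, Matrix.SpecialLinearGroup.coe_mul,
      Matrix.SpecialLinearGroup.SL2_inv_expl]
    rw [Matrix.mul_apply, Fin.sum_univ_two, Matrix.mul_apply, Matrix.mul_apply, Fin.sum_univ_two,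
      Fin.sum_univ_two]
    simp [δ]
    linear_combination key

/-- An element of `SL(2, ℤ)` with `trace ^ 2 = 4` acts on `ℍ` as a conjugate of a translation. -/
theorem exists_conj_T (γ : SL(2, ℤ)) (htr : γ.1.trace ^ 2 = 4) :
    ∃ δ : SL(2, ℤ), ∃ m : ℤ, ∀ w : ℍ, γ • (δ • w) = δ • ((m : ℝ) +ᵥ w) := by
  obtain ⟨δ, hδ⟩ := exists_conj_upper γ htr
  obtain ⟨m, hm⟩ := upper_eq_T_zpow _ hδ
  refine ⟨δ, m, fun w => ?_⟩
  have h1 : γ * δ = δ * (δ⁻¹ * γ * δ) := by group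
  rw [← mul_smul, h1, mul_smul]
  rcases hm with hm | hm
  · rw [hm, modular_T_zpow_smul]
  · rw [hm, SL_neg_smul, modular_T_zpow_smul]

end Fermat.Agent.S21
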