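import Mathlib
import Fermat.Prelude.Def_ModularCurve_PeriodHomPair

set_option autoImplicit false

/-!
Primitives of periodic holomorphic functions on the upper half plane vanishing at `i∞`.
-/

open Filter Topology Complex
open UpperHalfPlane hiding I
open scoped Real Manifold

namespace Fermat.Agent.S21

local notation "𝕢" => Function.Periodic.qParam

/-- `F ∘ ofComplex` agrees near a point of the upper half plane with any extension. -/
theorem comp_ofComplex_eventuallyEq (Φ : ℂ → ℂ) (τ : ℍ) :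
    ((fun w : ℍ => Φ (w : ℂ)) ∘ ofComplex) =ᶠ[𝓝 (τ : ℂ)] Φ := by
  have hopen : IsOpen {z : ℂ | 0 < z.im} := isOpen_lt continuous_const Complex.continuous_im
  filter_upwards [hopen.mem_nhds (show (τ : ℂ) ∈ {z : ℂ | 0 < z.im} from τ.im_pos)] with z hz
  simp only [Function.comp_apply]
  rw [ofComplex_apply_of_im_pos hz]

/-- A holomorphic function on `ℍ`, periodic and vanishing at `i∞`, has a primitive vanishing at
`i∞`. -/
theorem exists_primitive_of_periodic {f : ℍ → ℂ} {h : ℝ} (hh : 0 < h)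
    (hper : Function.Periodic (f ∘ ofComplex) h) (hhol : MDiff f) (hzero : IsZeroAtImInfty f) :
    ∃ F : ℍ → ℂ, (∀ τ : ℍ, HasDerivAt (F ∘ ofComplex) (f τ) ↑τ) ∧ Tendsto F atImInfty (𝓝 0) := by
  set c : ℂ → ℂ := cuspFunction h f with hc
  have hcdiff : DifferentiableOn ℂ c (Metric.ball 0 1) :=
    differentiableOn_cuspFunction_ball hh hper hhol hzero.isBoundedAtImInfty
  have hc0 : c 0 = 0 := by
    have han := analyticAt_cuspFunction_zero hh hper hhol hzero.isBoundedAtImInfty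
    rw [hc, cuspFunction_apply_zero hh han hper, hzero.valueAtInfty_eq_zero]
  have hgdiff : DifferentiableOn ℂ (dslope c 0) (Metric.ball 0 1) :=
    (Complex.differentiableOn_dslope (Metric.ball_mem_nhds 0 one_pos)).mpr hcdiff
  obtain ⟨G, hG0, hG⟩ := hgdiff.isExactOn_ball.with_val_at 0 0
  have h2pi : (2 * π * I : ℂ) ≠ 0 := Complex.two_pi_I_ne_zero
  have hhC : (h : ℂ) ≠ 0 := by exact_mod_cast hh.ne'
  set Φ : ℂ → ℂ := fun z => (h / (2 * π * I)) * G (𝕢 h z) with hΦ
  refine ⟨fun τ => Φ τ, fun τ => ?_, ?_⟩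
  · have hq1 : 𝕢 h (τ : ℂ) ∈ Metric.ball (0 : ℂ) 1 := by
      rw [mem_ball_zero_iff]
      exact Function.Periodic.norm_qParam_lt_one hh τ.im_pos
    have hq0 : 𝕢 h (τ : ℂ) ≠ 0 := Function.Periodic.qParam_ne_zero _
    have hqd : HasDerivAt (𝕢 h) (𝕢 h (τ : ℂ) * (2 * π * I / h)) (τ : ℂ) := by
      have h1 : HasDerivAt (fun z : ℂ => 2 * π * I * z / h) (2 * π * I / h) (τ : ℂ) := by
        simpa using ((hasDerivAt_id (τ : ℂ)).const_mul (2 * π * I)).div_const (h : ℂ)
      exact h1.cexp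
    have hGd := (hG _ hq1).comp (τ : ℂ) hqd
    have hslope : dslope c 0 (𝕢 h (τ : ℂ)) * 𝕢 h (τ : ℂ) = f τ := by
      have := sub_smul_dslope c 0 (𝕢 h (τ : ℂ))
      rw [sub_zero, hc0, sub_zero, smul_eq_mul] at this
      rw [mul_comm, this, hc, eq_cuspFunction τ hh.ne' hper]
    have hΦd : HasDerivAt Φ (f τ) (τ : ℂ) := by
      refine (hGd.const_mul ((h : ℂ) / (2 * π * I))).congr_deriv ?_
      rw [← hslope]
      field_simp
    exact hΦd.congr_of_eventuallyEq (comp_ofComplex_eventuallyEq Φ τ)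
  · have hGc : ContinuousAt G 0 := (hG 0 (Metric.mem_ball_self one_pos)).continuousAt
    have h1 : Tendsto (fun τ : ℍ => G (𝕢 h τ)) atImInfty (𝓝 (G 0)) :=
      hGc.tendsto.comp (qParam_tendsto_atImInfty hh)
    have h2 := h1.const_mul ((h : ℂ) / (2 * π * I))
    rw [hG0, mul_zero] at h2
    exact h2

end Fermat.Agent.S21
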