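import Mathlib
import Fermat.Prelude.Def_ModularCurve_PeriodHomPair
import Fermat.Prelude.Thm_CongruenceSubgroup_one_mem_strictPeriods_Gamma0
import Fermat.Agent.S21.Primitive
import Fermat.Agent.S21.Parabolic

set_option autoImplicit false

open Filter Topology Complex CongruenceSubgroup ModularCurve ModularCurve.Period ModularForm
open UpperHalfPlane hiding I
open scoped Real Manifold MatrixGroups

namespace Fermat.Agent.S21

/-- A function on `ℍ` with vanishing derivative is constant. -/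
theorem exists_const_of_hasDerivAt_zero {G : ℍ → ℂ}
    (hG : ∀ τ : ℍ, HasDerivAt (G ∘ ofComplex) 0 ↑τ) : ∃ c : ℂ, ∀ τ : ℍ, G τ = c := by
  have hopen : IsOpen {z : ℂ | 0 < z.im} := isOpen_lt continuous_const Complex.continuous_im
  have hconn : IsPreconnected {z : ℂ | 0 < z.im} := (convex_halfSpace_im_gt 0).isPreconnected
  have hd : ∀ z ∈ {z : ℂ | 0 < z.im}, HasDerivAt (G ∘ ofComplex) 0 z := fun z hz => hG ⟨z, hz⟩
  obtain ⟨a, ha⟩ := hopen.exists_is_const_of_deriv_eq_zero hconn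
    (fun z hz => (hd z hz).differentiableAt.differentiableWithinAt)
    (fun z hz => (hd z hz).deriv)
  refine ⟨a, fun τ => ?_⟩
  have := ha (τ : ℂ) τ.im_pos
  simpa [Function.comp_apply, ofComplex_apply] using this

/-- Chain rule for precomposition with a Möbius transformation. -/
theorem hasDerivAt_comp_smul {F f : ℍ → ℂ}
    (hF : ∀ τ : ℍ, HasDerivAt (F ∘ ofComplex) (f τ) ↑τ) (δ : SL(2, ℤ)) (τ : ℍ) :
    HasDerivAt ((fun w : ℍ => F (δ • w)) ∘ ofComplex) ((f ∣[(2 : ℤ)] δ) τ) ↑τ := by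
  have hdet1 : ((δ : GL (Fin 2) ℝ)).val.det = 1 := by
    have h : ((δ : GL (Fin 2) ℝ)).val = (δ.1.map (Int.castRingHom ℝ)) := rfl
    rw [h, ← RingHom.mapMatrix_apply, ← RingHom.map_det, δ.2]
    simp
  have hdet : 0 < ((δ : GL (Fin 2) ℝ)).val.det := by rw [hdet1]; exact one_pos
  have h1 : HasDerivAt (fun z : ℂ => ((δ : GL (Fin 2) ℝ) • ofComplex z : ℍ) : ℂ → ℂ)
      (((δ : GL (Fin 2) ℝ)).val.det / denom (δ : GL (Fin 2) ℝ) τ ^ 2) τ :=
    (hasStrictDerivAt_smul hdet τ).hasDerivAt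
  have h2 : HasDerivAt (F ∘ ofComplex) (f (δ • τ)) (((δ : GL (Fin 2) ℝ) • ofComplex (τ : ℂ) : ℍ) : ℂ) := by
    rw [ofComplex_apply]
    exact hF (δ • τ)
  have h3 := h2.comp (τ : ℂ) h1
  have heq : ((fun w : ℍ => F (δ • w)) ∘ ofComplex)
      = (F ∘ ofComplex) ∘ (fun z : ℂ => ((δ : GL (Fin 2) ℝ) • ofComplex z : ℍ) : ℂ → ℂ) := by
    funext z
    simp only [Function.comp_apply, ofComplex_apply]
    rfl
  rw [heq]
  refine h3.congr_deriv ?_
  rw [SL_slash_apply, hdet1, Complex.ofReal_one, one_div, zpow_neg]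
  rfl


variable (N : ℕ) [NeZero N]

omit [NeZero N] in
/-- `f ∣[2] δ` is `N`-periodic for a form of level `Γ₀(N)`. -/
theorem periodic_slash (f : CuspForm (Gamma0 N) 2) (δ : SL(2, ℤ)) :
    Function.Periodic ((⇑f ∣[(2 : ℤ)] δ) ∘ ofComplex) (N : ℝ) := by
  have h1 := SlashInvariantFormClass.periodic_comp_ofComplex (h := (N : ℝ))
    (CuspForm.translate f (δ : GL (Fin 2) ℝ)) (k := 2) ?_
  · rw [CuspForm.coe_translate] at h1
    exact_mod_cast h1
  · rw [Subgroup.mem_strictPeriods_iff, Subgroup.mem_pointwise_smul_iff_inv_smul_mem]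
    have hT' : ∀ m : ℤ, (Matrix.SpecialLinearGroup.mapGL ℝ (ModularGroup.T ^ m))
        = Matrix.GeneralLinearGroup.upperRightHom (m : ℝ) := by
      intro m
      apply Units.ext
      simp only [Matrix.SpecialLinearGroup.mapGL_coe_matrix, Matrix.SpecialLinearGroup.map_apply_coe,
        ModularGroup.coe_T_zpow]
      ext i j
      fin_cases i <;> fin_cases j <;> simp
    have hT : (Matrix.SpecialLinearGroup.mapGL ℝ (ModularGroup.T ^ (N : ℤ)))
        = Matrix.GeneralLinearGroup.upperRightHom (N : ℝ) := by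
      rw [hT' (N : ℤ), Int.cast_natCast]
    have hmem : δ * ModularGroup.T ^ (N : ℤ) * δ⁻¹ ∈ Gamma0 N := by
      have h1 : ModularGroup.T ^ (N : ℤ) ∈ CongruenceSubgroup.Gamma N := by
        simpa using ModularGroup_T_pow_mem_Gamma (N : ℤ) (N : ℤ) dvd_rfl
      have h2 := (Gamma_normal N).conj_mem _ h1 δ
      rw [Gamma0_mem]
      exact (Gamma_mem.mp h2).2.2.1
    refine ⟨_, hmem, ?_⟩
    rw [map_mul, map_mul, map_inv, hT, ← ConjAct.toConjAct_inv, inv_inv, ConjAct.smul_def,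
      ConjAct.ofConjAct_toConjAct]
    rfl

/-- Every weight-two cusp form of level `Γ₀(N)` has an equivariant primitive. -/
theorem exists_primitive (f : CuspForm (Gamma0 N) 2) :
    ∃ F : ℍ → ℂ, HasEquivariantPrimitive N f F := by
  obtain ⟨F, hFd, hF0⟩ := exists_primitive_of_periodic (f := f) one_pos
    (by exact_mod_cast (SlashInvariantFormClass.periodic_comp_ofComplex f
      (CongruenceSubgroup.one_mem_strictPeriods_Gamma0 N)))
    (CuspFormClass.holo f) (CuspFormClass.zero_at_infty f)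
  refine ⟨F, hFd, hF0, fun γ => ?_, fun δ => ?_⟩
  · have hslash : (⇑f ∣[(2 : ℤ)] (γ : SL(2, ℤ))) = ⇑f :=
      SlashInvariantFormClass.slash_action_eq f _ (Subgroup.mem_map_of_mem _ γ.2)
    have hd : ∀ τ : ℍ, HasDerivAt ((fun w : ℍ => F ((γ : SL(2, ℤ)) • w) - F w) ∘ ofComplex) 0 ↑τ := by
      intro τ
      have h1 := hasDerivAt_comp_smul hFd (γ : SL(2, ℤ)) τ
      rw [hslash] at h1
      have h2 := h1.sub (hFd τ)
      rw [sub_self] at h2
      exact h2
    obtain ⟨c, hc⟩ := exists_const_of_hasDerivAt_zero hd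
    exact ⟨c, hc⟩
  · have hN : (0 : ℝ) < N := by exact_mod_cast Nat.pos_of_ne_zero (NeZero.ne N)
    obtain ⟨Fδ, hFδd, hFδ0⟩ := exists_primitive_of_periodic (f := ⇑f ∣[(2 : ℤ)] δ) hN
      (periodic_slash N f δ) ((CuspFormClass.holo f).slash 2 _)
      (CuspFormClass.zero_at_infty_slash f δ)
    have hd : ∀ τ : ℍ, HasDerivAt ((fun w : ℍ => F (δ • w) - Fδ w) ∘ ofComplex) 0 ↑τ := by
      intro τ
      have h2 := (hasDerivAt_comp_smul hFd δ τ).sub (hFδd τ)
      rw [sub_self] at h2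
      exact h2
    obtain ⟨c, hc⟩ := exists_const_of_hasDerivAt_zero hd
    refine ⟨c, ?_⟩
    have h3 : (fun w : ℍ => F (δ • w)) = fun w : ℍ => Fδ w + c := by
      funext w
      have := hc w
      rw [← this]; ring
    rw [h3]
    have := hFδ0.add_const c
    rwa [zero_add] at this


omit [NeZero N] in
/-- The equivariant primitive is unique. -/
theorem primitive_unique {f : CuspForm (Gamma0 N) 2} {F F' : ℍ → ℂ}
    (hF : HasEquivariantPrimitive N f F) (hF' : HasEquivariantPrimitive N f F') : F = F' := by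
  have hd : ∀ τ : ℍ, HasDerivAt ((fun w : ℍ => F w - F' w) ∘ ofComplex) 0 ↑τ := by
    intro τ
    have h2 := (hF.1 τ).sub (hF'.1 τ)
    rw [sub_self] at h2
    exact h2
  obtain ⟨c, hc⟩ := exists_const_of_hasDerivAt_zero hd
  have h0 : Tendsto (fun w : ℍ => F w - F' w) atImInfty (𝓝 0) := by
    simpa using hF.2.1.sub hF'.2.1
  have hc' : (fun w : ℍ => F w - F' w) = fun _ => c := funext hc
  rw [hc'] at h0
  have hc0 : c = 0 := tendsto_nhds_unique tendsto_const_nhds h0
  funext w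
  have := hc w
  rw [hc0] at this
  exact sub_eq_zero.mp this

omit [NeZero N] in
theorem periodMap_eq {f : CuspForm (Gamma0 N) 2} {F : ℍ → ℂ}
    (hF : HasEquivariantPrimitive N f F) : periodMap N f = hF.2.2.1.periodHom := by
  obtain ⟨F₀, h₀, h⟩ := periodMap_def N f hF
  have : F₀ = F := primitive_unique N h₀ hF
  subst this
  exact h

omit [NeZero N] in
/-- The period of `f` along `γ` is `F (γ • z) - F z` for any base point `z`. -/
theorem periodMap_apply {f : CuspForm (Gamma0 N) 2} {F : ℍ → ℂ}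
    (hF : HasEquivariantPrimitive N f F) (γ : Gamma0 N) (z : ℍ) :
    periodMap N f (Additive.ofMul γ) = F ((γ : SL(2, ℤ)) • z) - F z := by
  rw [periodMap_eq N hF, IsEquivariantPrimitive.periodHom_apply,
    ← IsEquivariantPrimitive.sub_eq_period]

omit [NeZero N] in
theorem hasEquivariantPrimitive_add {f g : CuspForm (Gamma0 N) 2} {F G : ℍ → ℂ}
    (hF : HasEquivariantPrimitive N f F) (hG : HasEquivariantPrimitive N g G) :
    HasEquivariantPrimitive N (f + g) (F + G) := by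
  refine ⟨fun τ => ?_, ?_, fun γ => ?_, fun δ => ?_⟩
  · exact (hF.1 τ).add (hG.1 τ)
  · have := hF.2.1.add hG.2.1
    rw [add_zero] at this
    exact this
  · obtain ⟨c, hc⟩ := hF.2.2.1 γ
    obtain ⟨d, hd⟩ := hG.2.2.1 γ
    refine ⟨c + d, fun z => ?_⟩
    rw [← hc z, ← hd z]
    simp only [Pi.add_apply]
    ring
  · obtain ⟨L, hL⟩ := hF.2.2.2 δ
    obtain ⟨M, hM⟩ := hG.2.2.2 δ
    exact ⟨L + M, hL.add hM⟩

omit [NeZero N] in
theorem hasEquivariantPrimitive_smul (c : ℂ) {f : CuspForm (Gamma0 N) 2} {F : ℍ → ℂ}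
    (hF : HasEquivariantPrimitive N f F) :
    HasEquivariantPrimitive N (c • f) (c • F) := by
  refine ⟨fun τ => ?_, ?_, fun γ => ?_, fun δ => ?_⟩
  · exact (hF.1 τ).const_smul c
  · have := hF.2.1.const_smul c
    rw [smul_zero] at this
    exact this
  · obtain ⟨a, ha⟩ := hF.2.2.1 γ
    refine ⟨c * a, fun z => ?_⟩
    rw [← ha z]
    simp only [Pi.smul_apply, smul_eq_mul]
    ring
  · obtain ⟨L, hL⟩ := hF.2.2.2 δ
    exact ⟨c • L, hL.const_smul c⟩

theorem periodMap_add (f g : CuspForm (Gamma0 N) 2) :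
    periodMap N (f + g) = periodMap N f + periodMap N g := by
  obtain ⟨F, hF⟩ := exists_primitive N f
  obtain ⟨G, hG⟩ := exists_primitive N g
  refine AddMonoidHom.ext fun γ => ?_
  obtain ⟨γ, rfl⟩ := Additive.ofMul.surjective γ
  rw [AddMonoidHom.add_apply, periodMap_apply N (hasEquivariantPrimitive_add N hF hG) γ UpperHalfPlane.I,
    periodMap_apply N hF γ UpperHalfPlane.I, periodMap_apply N hG γ UpperHalfPlane.I]
  simp only [Pi.add_apply]
  ring

theorem periodMap_smul (c : ℂ) (f : CuspForm (Gamma0 N) 2) :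
    periodMap N (c • f) = c • periodMap N f := by
  obtain ⟨F, hF⟩ := exists_primitive N f
  refine AddMonoidHom.ext fun γ => ?_
  obtain ⟨γ, rfl⟩ := Additive.ofMul.surjective γ
  rw [AddMonoidHom.smul_apply, periodMap_apply N (hasEquivariantPrimitive_smul N c hF) γ UpperHalfPlane.I,
    periodMap_apply N hF γ UpperHalfPlane.I]
  simp only [Pi.smul_apply, smul_eq_mul]
  ring

/-- The period map is linear. -/
theorem existsPeriodMapLinear : ExistsPeriodMapLinear N :=
  ⟨{ toFun := periodMap N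
     map_add' := periodMap_add N
     map_smul' := fun c f => by simpa using periodMap_smul N c f }, fun _ => rfl⟩

/-- Closed formula for `periodHomPair`. -/
theorem periodHomPair_apply (f g : CuspForm (Gamma0 N) 2) :
    periodHomPair N (f, g)
      = (periodMap N f + charInvolution N ℂ ℂ (periodMap N f))
        + (periodMap N g - charInvolution N ℂ ℂ (periodMap N g)) := by
  obtain ⟨pml, hpml, h⟩ := periodHomPair_def N (existsPeriodMapLinear N)
  rw [h]
  simp [hpml]


omit [NeZero N] in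
/-- The primitive is invariant under elements of `Γ₀(N)` with `trace ^ 2 = 4`. -/
theorem primitive_smul_eq_of_trace {f : CuspForm (Gamma0 N) 2} {F : ℍ → ℂ}
    (hF : HasEquivariantPrimitive N f F) (γ : Gamma0 N)
    (htr : (((γ : SL(2, ℤ)) : Matrix (Fin 2) (Fin 2) ℤ)).trace ^ 2 = 4) (z : ℍ) :
    F ((γ : SL(2, ℤ)) • z) = F z := by
  obtain ⟨δ, m, h⟩ := exists_conj_T (γ : SL(2, ℤ)) htr
  obtain ⟨c, hc⟩ := hF.2.2.1 γ
  obtain ⟨L, hL⟩ := hF.2.2.2 δ
  have hshift : Tendsto (fun w : ℍ => (m : ℝ) +ᵥ w) atImInfty atImInfty := by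
    rw [atImInfty, tendsto_comap_iff]
    have : (UpperHalfPlane.im ∘ fun w : ℍ => (m : ℝ) +ᵥ w) = UpperHalfPlane.im := by
      funext w
      simp [UpperHalfPlane.vadd_im]
    rw [this]
    exact tendsto_comap
  have h1 : Tendsto (fun w : ℍ => F (δ • ((m : ℝ) +ᵥ w)) - F (δ • w)) atImInfty (𝓝 (L - L)) :=
    (hL.comp hshift).sub hL
  have h2 : (fun w : ℍ => F (δ • ((m : ℝ) +ᵥ w)) - F (δ • w)) = fun _ => c := by
    funext w
    rw [← h w]
    exact hc (δ • w)
  rw [h2, sub_self] at h1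
  have hc0 : c = 0 := tendsto_nhds_unique tendsto_const_nhds h1
  have := hc z
  rw [hc0] at this
  exact sub_eq_zero.mp this

/-- Periods of cusp forms are parabolic homomorphisms. -/
theorem periodMap_mem_parabolicHoms (f : CuspForm (Gamma0 N) 2) :
    periodMap N f ∈ parabolicHoms ℂ (Gamma0 N) ℂ := by
  obtain ⟨F, hF⟩ := exists_primitive N f
  rw [mem_parabolicHoms_iff]
  intro γ hγ
  rw [periodMap_apply N hF γ UpperHalfPlane.I, primitive_smul_eq_of_trace N hF γ hγ, sub_self]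

omit [NeZero N] in
theorem conj_T_zpow_mem_Gamma0 (δ : SL(2, ℤ)) :
    δ * ModularGroup.T ^ (N : ℤ) * δ⁻¹ ∈ Gamma0 N := by
  have h1 : ModularGroup.T ^ (N : ℤ) ∈ CongruenceSubgroup.Gamma N := by
    simpa using ModularGroup_T_pow_mem_Gamma (N : ℤ) (N : ℤ) dvd_rfl
  have h2 := (Gamma_normal N).conj_mem _ h1 δ
  rw [Gamma0_mem]
  exact (Gamma_mem.mp h2).2.2.1

omit [NeZero N] in
/-- `F ∘ δ` is `N`-periodic for every `δ ∈ SL(2, ℤ)`. -/
theorem primitive_smul_vadd {f : CuspForm (Gamma0 N) 2} {F : ℍ → ℂ}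
    (hF : HasEquivariantPrimitive N f F) (δ : SL(2, ℤ)) (w : ℍ) :
    F (δ • ((N : ℝ) +ᵥ w)) = F (δ • w) := by
  have htr : ((δ * ModularGroup.T ^ (N : ℤ) * δ⁻¹ : SL(2, ℤ)) : Matrix (Fin 2) (Fin 2) ℤ).trace ^ 2
      = 4 := by
    rw [Matrix.SpecialLinearGroup.coe_mul, Matrix.SpecialLinearGroup.coe_mul,
      Matrix.trace_mul_cycle, ← Matrix.SpecialLinearGroup.coe_mul, inv_mul_cancel,
      Matrix.SpecialLinearGroup.coe_one, one_mul, ModularGroup.coe_T_zpow, Matrix.trace_fin_two_of]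
    norm_num
  have h1 := primitive_smul_eq_of_trace N hF ⟨_, conj_T_zpow_mem_Gamma0 N δ⟩ htr (δ • w)
  rw [← h1]
  congr 1
  have h2 : (N : ℝ) +ᵥ w = ModularGroup.T ^ (N : ℤ) • w := by
    rw [modular_T_zpow_smul]; simp
  rw [h2, ← mul_smul, ← mul_smul]
  congr 1
  group

end Fermat.Agent.S21
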