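import Mathlib
import Fermat.Prelude.Def_ModularCurve_PeriodMap

set_option autoImplicit false

open scoped MatrixGroups
open ModularCurve.Period ModularGroup

namespace Fermat.Agent.S21.GroupBound

noncomputable section

variable (Γ : Subgroup SL(2, ℤ))

/-- Functions on the coset space `SL(2, ℤ) ⧸ Γ`. -/
abbrev V : Type := (SL(2, ℤ) ⧸ Γ) → ℂ

/-- Translation operator `(R g v) x = v (g • x)`. -/
def R (g : SL(2, ℤ)) : V Γ →ₗ[ℂ] V Γ where
  toFun v := fun x => v (g • x)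
  map_add' _ _ := rfl
  map_smul' _ _ := rfl

@[simp] lemma R_apply (g : SL(2, ℤ)) (v : V Γ) (x : SL(2, ℤ) ⧸ Γ) : R Γ g v x = v (g • x) := rfl

lemma R_mul (g h : SL(2, ℤ)) (v : V Γ) : R Γ (g * h) v = R Γ h (R Γ g v) := by
  funext x; simp [mul_smul]

lemma R_one (v : V Γ) : R Γ 1 v = v := by
  funext x; simp

lemma R_inv_cancel (g : SL(2, ℤ)) (v : V Γ) : R Γ g (R Γ g⁻¹ v) = v := by
  rw [← R_mul, inv_mul_cancel, R_one]

lemma R_cancel_inv (g : SL(2, ℤ)) (v : V Γ) : R Γ g⁻¹ (R Γ g v) = v := by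
  rw [← R_mul, mul_inv_cancel, R_one]

lemma R_injective (g : SL(2, ℤ)) : Function.Injective (R Γ g) := by
  intro v w h
  have := congrArg (R Γ g⁻¹) h
  simpa [R_cancel_inv] using this

lemma delta_mem (g : SL(2, ℤ)) (x : SL(2, ℤ) ⧸ Γ) :
    (g • x).out⁻¹ * g * x.out ∈ Γ := by
  have h : (((g • x).out : SL(2, ℤ)) : SL(2, ℤ) ⧸ Γ) = ((g * x.out : SL(2, ℤ)) : SL(2, ℤ) ⧸ Γ) := by
    rw [QuotientGroup.out_eq']
    conv_lhs => rw [← QuotientGroup.out_eq' x]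
    rfl
  rw [QuotientGroup.eq] at h
  simpa [mul_assoc] using h

/-- The element `s(g x)⁻¹ g s(x)` of `Γ`. -/
def delta (g : SL(2, ℤ)) (x : SL(2, ℤ) ⧸ Γ) : Γ :=
  ⟨(g • x).out⁻¹ * g * x.out, delta_mem Γ g x⟩

lemma delta_mul (g h : SL(2, ℤ)) (x : SL(2, ℤ) ⧸ Γ) :
    delta Γ (g * h) x = delta Γ g (h • x) * delta Γ h x := by
  apply Subtype.ext
  simp [delta, mul_smul, mul_assoc]

/-- The cocycle attached to a homomorphism `φ : Γ → ℂ`. -/
def coc (φ : Additive Γ →+ ℂ) (g : SL(2, ℤ)) : V Γ :=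
  fun x => φ (Additive.ofMul (delta Γ g x))

lemma coc_mul (φ : Additive Γ →+ ℂ) (g h : SL(2, ℤ)) :
    coc Γ φ (g * h) = R Γ h (coc Γ φ g) + coc Γ φ h := by
  funext x
  simp [coc, delta_mul, ofMul_mul]

/-- The twisted cocycle `coc φ + ∂v`. -/
def tw (φ : Additive Γ →+ ℂ) (v : V Γ) (g : SL(2, ℤ)) : V Γ :=
  coc Γ φ g + (R Γ g v - v)

lemma tw_mul (φ : Additive Γ →+ ℂ) (v : V Γ) (g h : SL(2, ℤ)) :
    tw Γ φ v (g * h) = R Γ h (tw Γ φ v g) + tw Γ φ v h := by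
  simp only [tw, coc_mul, R_mul, map_add, map_sub]
  abel

/-- A "cocycle" vanishing on `S` and `S * T` vanishes identically. -/
lemma cocycle_eq_zero {c : SL(2, ℤ) → V Γ}
    (hc : ∀ g h, c (g * h) = R Γ h (c g) + c h)
    (hS : c S = 0) (hU : c (S * T) = 0) (g : SL(2, ℤ)) : c g = 0 := by
  have h1 : c 1 = 0 := by
    have := hc 1 1
    rw [mul_one, R_one] at this
    simpa using this
  have hinv : ∀ g, c g = 0 → c g⁻¹ = 0 := by
    intro g hg
    have := hc g⁻¹ g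
    rw [inv_mul_cancel, h1, hg, add_zero] at this
    exact R_injective Γ g (by simpa using this.symm)
  let H : Subgroup SL(2, ℤ) :=
    { carrier := {g | c g = 0}
      mul_mem' := by
        intro a b ha hb
        change c (a * b) = 0
        have ha' : c a = 0 := ha
        have hb' : c b = 0 := hb
        rw [hc, ha', hb']; simp
      one_mem' := h1
      inv_mem' := by
        intro a ha
        exact hinv a ha }
  have hSH : S ∈ H := hS
  have hTH : T ∈ H := by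
    have h2 : S⁻¹ * (S * T) ∈ H := H.mul_mem (H.inv_mem hSH) hU
    simpa using h2
  have htop : H = ⊤ := by
    apply top_unique
    rw [← SpecialLinearGroup.SL2Z_generators, Subgroup.closure_le]
    intro a ha
    rcases ha with rfl | rfl
    · exact hSH
    · exact hTH
  have : g ∈ H := by rw [htop]; trivial
  exact this


/-! ### The base point and the kernel -/

/-- The base coset. -/
def x0 : SL(2, ℤ) ⧸ Γ := ((1 : SL(2, ℤ)) : SL(2, ℤ) ⧸ Γ)

lemma smul_x0_of_mem {γ : SL(2, ℤ)} (hγ : γ ∈ Γ) : γ • x0 Γ = x0 Γ := by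
  change ((γ * 1 : SL(2, ℤ)) : SL(2, ℤ) ⧸ Γ) = ((1 : SL(2, ℤ)) : SL(2, ℤ) ⧸ Γ)
  rw [QuotientGroup.eq]
  simpa using Γ.inv_mem hγ

lemma out_x0_mem : (x0 Γ).out ∈ Γ := by
  have h : (((x0 Γ).out : SL(2, ℤ)) : SL(2, ℤ) ⧸ Γ) = ((1 : SL(2, ℤ)) : SL(2, ℤ) ⧸ Γ) :=
    QuotientGroup.out_eq' _
  rw [QuotientGroup.eq] at h
  simpa using Γ.inv_mem h

lemma exists_smul_x0 (x : SL(2, ℤ) ⧸ Γ) : ∃ g : SL(2, ℤ), g • x0 Γ = x := by
  refine ⟨x.out, ?_⟩
  change ((x.out * 1 : SL(2, ℤ)) : SL(2, ℤ) ⧸ Γ) = x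
  rw [mul_one, QuotientGroup.out_eq']

lemma coc_x0_of_mem (φ : Additive Γ →+ ℂ) (γ : Γ) :
    coc Γ φ (γ : SL(2, ℤ)) (x0 Γ) = φ (Additive.ofMul γ) := by
  have hd : delta Γ (γ : SL(2, ℤ)) (x0 Γ)
      = (⟨(x0 Γ).out, out_x0_mem Γ⟩ : Γ)⁻¹ * γ * ⟨(x0 Γ).out, out_x0_mem Γ⟩ := by
    apply Subtype.ext
    simp [delta, smul_x0_of_mem Γ γ.2]
  simp [coc, hd, ofMul_mul]

/-- If the twisted cocycle vanishes on `S` and `S * T`, then `φ = 0` and `v` is constant. -/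
lemma eq_zero_of_tw_eq_zero (φ : Additive Γ →+ ℂ) (v : V Γ)
    (hS : tw Γ φ v S = 0) (hU : tw Γ φ v (S * T) = 0) :
    φ = 0 ∧ ∀ x, v x = v (x0 Γ) := by
  have hall := cocycle_eq_zero Γ (tw_mul Γ φ v) hS hU
  have hφ : φ = 0 := by
    refine AddMonoidHom.ext fun a => ?_
    obtain ⟨γ, rfl⟩ := Additive.ofMul.surjective a
    have h := congrFun (hall (γ : SL(2, ℤ))) (x0 Γ)
    simp only [tw, Pi.add_apply, Pi.sub_apply, R_apply, smul_x0_of_mem Γ γ.2, sub_self, add_zero,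
      coc_x0_of_mem, Pi.zero_apply] at h
    simpa using h
  refine ⟨hφ, fun x => ?_⟩
  obtain ⟨g, rfl⟩ := exists_smul_x0 Γ x
  have h := congrFun (hall g) (x0 Γ)
  subst hφ
  simp only [tw, coc, Pi.add_apply, Pi.sub_apply, R_apply, AddMonoidHom.zero_apply, zero_add,
    Pi.zero_apply] at h
  exact sub_eq_zero.mp h


section PartT3



lemma neg_one_smul' (hΓ : (-1 : SL(2, ℤ)) ∈ Γ) (x : SL(2, ℤ) ⧸ Γ) : (-1 : SL(2, ℤ)) • x = x := by
  induction x using QuotientGroup.induction_on with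
  | H a =>
    change ((-1 * a : SL(2, ℤ)) : SL(2, ℤ) ⧸ Γ) = a
    rw [QuotientGroup.eq]
    have : (-1 * a)⁻¹ * a = (-1 : SL(2, ℤ)) := by
      rw [mul_inv_rev]
      have h1 : ((-1 : SL(2, ℤ)))⁻¹ = -1 := by decide
      rw [h1]
      simp
    rw [this]; exact hΓ

lemma trace_conj (a g : SL(2, ℤ)) :
    ((a⁻¹ * g * a : SL(2, ℤ)) : Matrix (Fin 2) (Fin 2) ℤ).trace
      = (g : Matrix (Fin 2) (Fin 2) ℤ).trace := by
  rw [Matrix.SpecialLinearGroup.coe_mul, Matrix.trace_mul_comm, ← Matrix.SpecialLinearGroup.coe_mul]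
  simp

lemma trace_T_pow (n : ℕ) : ((T ^ n : SL(2, ℤ)) : Matrix (Fin 2) (Fin 2) ℤ).trace = 2 := by
  rw [← zpow_natCast, ModularGroup.coe_T_zpow]
  simp [Matrix.trace_fin_two]

end PartT3


section PartT4



lemma R_neg_one (hΓ : (-1 : SL(2, ℤ)) ∈ Γ) (v : V Γ) : R Γ (-1) v = v := by
  funext x; simp [neg_one_smul' Γ hΓ]

lemma tw_neg_one (hΓ : (-1 : SL(2, ℤ)) ∈ Γ) {φ : Additive Γ →+ ℂ} (hφ : IsParabolicHom Γ φ)
    (v : V Γ) : tw Γ φ v (-1) = 0 := by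
  funext x
  simp only [tw, coc, Pi.add_apply, Pi.sub_apply, R_apply, neg_one_smul' Γ hΓ, sub_self, add_zero,
    Pi.zero_apply]
  apply hφ
  have : ((delta Γ (-1) x : Γ) : SL(2, ℤ)) = x.out⁻¹ * (-1) * x.out := by
    simp [delta, neg_one_smul' Γ hΓ]
  rw [this, trace_conj]
  decide

/-- Constraint (i). -/
lemma tw_S_add (hΓ : (-1 : SL(2, ℤ)) ∈ Γ) {φ : Additive Γ →+ ℂ} (hφ : IsParabolicHom Γ φ)
    (v : V Γ) : tw Γ φ v S + R Γ S (tw Γ φ v S) = 0 := by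
  have h := tw_mul Γ φ v S S
  have hSS : S * S = (-1 : SL(2, ℤ)) := by decide
  rw [hSS, tw_neg_one Γ hΓ hφ] at h
  rw [add_comm]; exact h.symm

/-- Constraint (ii). -/
lemma tw_U_add (hΓ : (-1 : SL(2, ℤ)) ∈ Γ) {φ : Additive Γ →+ ℂ} (hφ : IsParabolicHom Γ φ)
    (v : V Γ) :
    tw Γ φ v (S * T) + R Γ (S * T) (tw Γ φ v (S * T))
      + R Γ (S * T) (R Γ (S * T) (tw Γ φ v (S * T))) = 0 := by
  have h1 := tw_mul Γ φ v (S * T) (S * T)
  have h2 := tw_mul Γ φ v (S * T * (S * T)) (S * T)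
  have hUUU : S * T * (S * T) * (S * T) = (-1 : SL(2, ℤ)) := by decide
  rw [hUUU, tw_neg_one Γ hΓ hφ, h1, map_add] at h2
  rw [h2]; abel

lemma tw_T (φ : Additive Γ →+ ℂ) (v : V Γ) :
    tw Γ φ v T = tw Γ φ v (S * T) - R Γ T (tw Γ φ v S) := by
  rw [tw_mul]; abel

lemma tw_pow (φ : Additive Γ →+ ℂ) (v : V Γ) (g : SL(2, ℤ)) (n : ℕ) :
    tw Γ φ v (g ^ n) = ∑ l ∈ Finset.range n, R Γ (g ^ l) (tw Γ φ v g) := by
  induction n with
  | zero =>
    have := tw_mul Γ φ v 1 1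
    rw [mul_one, R_one] at this
    simpa using this
  | succ n ih =>
    rw [pow_succ', tw_mul, ih, Finset.sum_range_succ]; abel

end PartT4


section PartT5


variable [Γ.FiniteIndex]

/-- A positive common period of `T` on the coset space. -/
def h0 : ℕ := orderOf (MulAction.toPermHom SL(2, ℤ) (SL(2, ℤ) ⧸ Γ) T)

lemma h0_pos : 0 < h0 Γ := by
  exact orderOf_pos _

lemma T_pow_h0_smul (x : SL(2, ℤ) ⧸ Γ) : (T ^ h0 Γ : SL(2, ℤ)) • x = x := by
  have h : (MulAction.toPermHom SL(2, ℤ) (SL(2, ℤ) ⧸ Γ) T) ^ h0 Γ = 1 := pow_orderOf_eq_one _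
  rw [← map_pow] at h
  have := congrArg (fun e : Equiv.Perm (SL(2, ℤ) ⧸ Γ) => e x) h
  simpa using this

/-- The orbit-sum operator. -/
def A : V Γ →ₗ[ℂ] V Γ := ∑ l ∈ Finset.range (h0 Γ), R Γ (T ^ l)

lemma A_apply (v : V Γ) : A Γ v = ∑ l ∈ Finset.range (h0 Γ), R Γ (T ^ l) v := by
  simp [A]

lemma A_R_T (v : V Γ) : A Γ (R Γ T v) = A Γ v := by
  rw [A_apply, A_apply]
  have h1 : ∀ l, R Γ (T ^ l) (R Γ T v) = R Γ (T ^ (l + 1)) v := by
    intro l; rw [pow_succ', R_mul]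
  simp only [h1]
  have h2 : R Γ (T ^ h0 Γ) v = v := by
    funext x; simp [T_pow_h0_smul]
  have h3 := (Finset.sum_range_succ' (fun l => R Γ (T ^ l) v) (h0 Γ)).symm.trans
    (Finset.sum_range_succ (fun l => R Γ (T ^ l) v) (h0 Γ))
  simp only [h2, pow_zero, R_one] at h3
  exact add_right_cancel h3

lemma A_tw_T {φ : Additive Γ →+ ℂ} (hφ : IsParabolicHom Γ φ) (v : V Γ) :
    A Γ (tw Γ φ v T) = 0 := by
  rw [A_apply, ← tw_pow]
  funext x
  simp only [tw, coc, Pi.add_apply, Pi.sub_apply, R_apply, T_pow_h0_smul, sub_self, add_zero,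
    Pi.zero_apply]
  apply hφ
  have : ((delta Γ (T ^ h0 Γ) x : Γ) : SL(2, ℤ)) = x.out⁻¹ * (T ^ h0 Γ) * x.out := by
    simp [delta, T_pow_h0_smul]
  rw [this, trace_conj, trace_T_pow]
  norm_num

/-- Constraint (iii). -/
lemma A_tw_U_eq {φ : Additive Γ →+ ℂ} (hφ : IsParabolicHom Γ φ) (v : V Γ) :
    A Γ (tw Γ φ v (S * T)) = A Γ (tw Γ φ v S) := by
  have h := A_tw_T Γ hφ v
  rw [tw_T, map_sub, A_R_T] at h
  exact sub_eq_zero.mp h

end PartT5


section PartT6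



/-- The `-1`-eigenspace of `R S`. -/
def Vm : Submodule ℂ (V Γ) := LinearMap.ker (LinearMap.id + R Γ S)

/-- The kernel of `1 + R U + R U ^ 2`, `U = S * T`. -/
def W : Submodule ℂ (V Γ) :=
  LinearMap.ker (LinearMap.id + R Γ (S * T) + (R Γ (S * T)).comp (R Γ (S * T)))

lemma mem_Vm {v : V Γ} : v ∈ Vm Γ ↔ v + R Γ S v = 0 := by
  simp [Vm, LinearMap.mem_ker]

lemma mem_W {v : V Γ} :
    v ∈ W Γ ↔ v + R Γ (S * T) v + R Γ (S * T) (R Γ (S * T) v) = 0 := by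
  simp [W, LinearMap.mem_ker]

/-- The twisted cocycle at `g` as a linear map in `(φ, v)`. -/
def twL (g : SL(2, ℤ)) : ((Additive Γ →+ ℂ) × V Γ) →ₗ[ℂ] V Γ where
  toFun p := tw Γ p.1 p.2 g
  map_add' p q := by
    funext x
    simp [tw, coc]
    ring
  map_smul' c p := by
    funext x
    simp [tw, coc]
    ring

@[simp] lemma twL_apply (g : SL(2, ℤ)) (p : (Additive Γ →+ ℂ) × V Γ) :
    twL Γ g p = tw Γ p.1 p.2 g := rfl

/-- `Hom(Γ, ℂ)` is finite-dimensional. -/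
lemma finite_hom [Γ.FiniteIndex] : Module.Finite ℂ (Additive Γ →+ ℂ) := by
  let f : (Additive Γ →+ ℂ) →ₗ[ℂ] (V Γ × V Γ) :=
    ((twL Γ S).prod (twL Γ (S * T))).comp (LinearMap.inl ℂ _ _)
  have hf : Function.Injective f := by
    rw [← LinearMap.ker_eq_bot, LinearMap.ker_eq_bot']
    intro φ hφ
    have h1 : tw Γ φ 0 S = 0 := congrArg Prod.fst hφ
    have h2 : tw Γ φ 0 (S * T) = 0 := congrArg Prod.snd hφ
    exact (eq_zero_of_tw_eq_zero Γ φ 0 h1 h2).1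
  exact Module.Finite.of_injective f hf

instance finite_parabolicHoms [Γ.FiniteIndex] : Module.Finite ℂ (parabolicHoms ℂ Γ ℂ) := by
  have := finite_hom Γ
  infer_instance

variable (hΓ : (-1 : SL(2, ℤ)) ∈ Γ)

/-- The map `(φ, v) ↦ (tw S, tw U)` on parabolic homs. -/
def Theta : (parabolicHoms ℂ Γ ℂ × V Γ) →ₗ[ℂ] (Vm Γ × W Γ) :=
  LinearMap.prod
    (LinearMap.codRestrict (Vm Γ)
      ((twL Γ S).comp (LinearMap.prodMap (parabolicHoms ℂ Γ ℂ).subtype LinearMap.id))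
      (fun p => (mem_Vm Γ).2 (tw_S_add Γ hΓ p.1.2 p.2)))
    (LinearMap.codRestrict (W Γ)
      ((twL Γ (S * T)).comp (LinearMap.prodMap (parabolicHoms ℂ Γ ℂ).subtype LinearMap.id))
      (fun p => (mem_W Γ).2 (tw_U_add Γ hΓ p.1.2 p.2)))

lemma Theta_fst (p : parabolicHoms ℂ Γ ℂ × V Γ) :
    ((Theta Γ hΓ p).1 : V Γ) = tw Γ p.1.1 p.2 S := rfl

lemma Theta_snd (p : parabolicHoms ℂ Γ ℂ × V Γ) :
    ((Theta Γ hΓ p).2 : V Γ) = tw Γ p.1.1 p.2 (S * T) := rfl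

lemma ker_Theta_le :
    LinearMap.ker (Theta Γ hΓ)
      ≤ Submodule.span ℂ {((0 : parabolicHoms ℂ Γ ℂ), ((fun _ => (1 : ℂ)) : V Γ))} := by
  rintro ⟨φ, v⟩ hp
  have hp' : Theta Γ hΓ (φ, v) = 0 := hp
  have h1 : tw Γ φ.1 v S = 0 := by
    have := congrArg (fun q : Vm Γ × W Γ => (q.1 : V Γ)) hp'
    simpa [Theta_fst] using this
  have h2 : tw Γ φ.1 v (S * T) = 0 := by
    have := congrArg (fun q : Vm Γ × W Γ => (q.2 : V Γ)) hp'
    simpa [Theta_snd] using this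
  obtain ⟨hφ, hv⟩ := eq_zero_of_tw_eq_zero Γ φ.1 v h1 h2
  rw [Submodule.mem_span_singleton]
  refine ⟨v (x0 Γ), ?_⟩
  apply Prod.ext
  · apply Subtype.ext
    simp [hφ]
  · funext x
    simp [hv x]

lemma finrank_ker_Theta_le [Γ.FiniteIndex] :
    Module.finrank ℂ (LinearMap.ker (Theta Γ hΓ)) ≤ 1 := by
  refine (Submodule.finrank_mono (ker_Theta_le Γ hΓ)).trans ?_
  have h := finrank_span_le_card (R := ℂ)
    ({((0 : parabolicHoms ℂ Γ ℂ), ((fun _ => (1 : ℂ)) : V Γ))} :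
      Set (parabolicHoms ℂ Γ ℂ × V Γ))
  simpa using h

end PartT6


section PartT8



lemma sub_R_S_mem (hΓ : (-1 : SL(2, ℤ)) ∈ Γ) (v : V Γ) : v - R Γ S v ∈ Vm Γ := by
  rw [mem_Vm, map_sub, ← R_mul]
  have hSS : S * S = (-1 : SL(2, ℤ)) := by decide
  rw [hSS, R_neg_one Γ hΓ]; abel

lemma sub_R_U_mem (hΓ : (-1 : SL(2, ℤ)) ∈ Γ) (v : V Γ) : v - R Γ (S * T) v ∈ W Γ := by
  rw [mem_W]
  simp only [map_sub]
  have h3 : R Γ (S * T) (R Γ (S * T) (R Γ (S * T) v)) = v := by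
    rw [← R_mul, ← R_mul]
    have hUUU : S * T * (S * T * (S * T)) = (-1 : SL(2, ℤ)) := by decide
    rw [hUUU, R_neg_one Γ hΓ]
  rw [h3]; abel

/-- Every `v - R g v` lies in `Vm ⊔ W`. -/
lemma sub_R_mem_sup (hΓ : (-1 : SL(2, ℤ)) ∈ Γ) (g : SL(2, ℤ)) (v : V Γ) :
    v - R Γ g v ∈ Vm Γ ⊔ W Γ := by
  let H : Subgroup SL(2, ℤ) :=
    { carrier := {g | ∀ v : V Γ, v - R Γ g v ∈ Vm Γ ⊔ W Γ}
      mul_mem' := by
        intro a b ha hb v
        have h1 : v - R Γ (a * b) v = (v - R Γ a v) + (R Γ a v - R Γ b (R Γ a v)) := by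
          rw [R_mul]; abel
        rw [h1]
        exact Submodule.add_mem _ (ha v) (hb _)
      one_mem' := by
        intro v
        rw [R_one, sub_self]
        exact Submodule.zero_mem _
      inv_mem' := by
        intro a ha v
        have h1 : v - R Γ a⁻¹ v = -(R Γ a⁻¹ v - R Γ a (R Γ a⁻¹ v)) := by
          rw [R_inv_cancel]; abel
        rw [h1]
        exact Submodule.neg_mem _ (ha _) }
  have hSH : S ∈ H := fun v => Submodule.mem_sup_left (sub_R_S_mem Γ hΓ v)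
  have hUH : S * T ∈ H := fun v => Submodule.mem_sup_right (sub_R_U_mem Γ hΓ v)
  have hTH : T ∈ H := by
    have h2 : S⁻¹ * (S * T) ∈ H := H.mul_mem (H.inv_mem hSH) hUH
    simpa using h2
  have htop : H = ⊤ := by
    apply top_unique
    rw [← SpecialLinearGroup.SL2Z_generators, Subgroup.closure_le]
    intro a ha
    rcases ha with rfl | rfl
    · exact hSH
    · exact hTH
  have : g ∈ H := by rw [htop]; trivial
  exact this v

variable [Γ.FiniteIndex]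

local instance : Fintype (SL(2, ℤ) ⧸ Γ) := Fintype.ofFinite _

open Classical in
/-- Functions of total sum zero lie in `Vm ⊔ W`. -/
lemma mem_sup_of_sum_eq_zero (hΓ : (-1 : SL(2, ℤ)) ∈ Γ) (v : V Γ) (hv : ∑ x, v x = 0) :
    v ∈ Vm Γ ⊔ W Γ := by
  have hv' : v = ∑ x, v x • ((Pi.single x (1 : ℂ) : V Γ) - Pi.single (x0 Γ) 1) := by
    funext y
    simp only [Finset.sum_apply, Pi.smul_apply, Pi.sub_apply, smul_eq_mul, mul_sub, Pi.single_apply,
      mul_ite, mul_one, mul_zero, Finset.sum_sub_distrib, Finset.sum_ite_eq, Finset.mem_univ, if_true]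
    by_cases hy : y = x0 Γ
    · simp [hy, hv]
    · simp [hy]
  rw [hv']
  refine Submodule.sum_mem _ fun x _ => Submodule.smul_mem _ _ ?_
  obtain ⟨g, hg⟩ := exists_smul_x0 Γ x
  have : (Pi.single x (1 : ℂ) : V Γ) - Pi.single (x0 Γ) 1
      = (Pi.single x (1 : ℂ) : V Γ) - R Γ g (Pi.single x 1) := by
    congr 1
    funext y
    simp only [R_apply, Pi.single_apply]
    have : g • y = x ↔ y = x0 Γ := by
      rw [← hg]
      exact (MulAction.injective g).eq_iff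
    simp [this]
  rw [this]
  exact sub_R_mem_sup Γ hΓ g _

end PartT8


section PartT9


variable [Γ.FiniteIndex]

local instance : Fintype (SL(2, ℤ) ⧸ Γ) := Fintype.ofFinite _

/-- The constraint map. -/
def kappa : (Vm Γ × W Γ) →ₗ[ℂ] V Γ :=
  (A Γ).comp ((W Γ).subtype.comp (LinearMap.snd ℂ _ _) - (Vm Γ).subtype.comp (LinearMap.fst ℂ _ _))

lemma kappa_apply (p : Vm Γ × W Γ) : kappa Γ p = A Γ ((p.2 : V Γ) - (p.1 : V Γ)) := rfl

lemma range_Theta_le_ker_kappa (hΓ : (-1 : SL(2, ℤ)) ∈ Γ) :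
    LinearMap.range (Theta Γ hΓ) ≤ LinearMap.ker (kappa Γ) := by
  rintro _ ⟨p, rfl⟩
  rw [LinearMap.mem_ker, kappa_apply, map_sub, Theta_fst, Theta_snd, A_tw_U_eq Γ p.1.2, sub_self]

/-- The orbit space of `T` on the cosets. -/
abbrev Orb : Type := MulAction.orbitRel.Quotient (Subgroup.zpowers T) (SL(2, ℤ) ⧸ Γ)

/-- The projection to the orbit space. -/
def proj (x : SL(2, ℤ) ⧸ Γ) : Orb Γ := Quotient.mk'' x

lemma proj_T_smul (x : SL(2, ℤ) ⧸ Γ) : proj Γ (T • x) = proj Γ x := by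
  apply Quotient.sound'
  rw [MulAction.orbitRel_apply]
  exact ⟨⟨T, Subgroup.mem_zpowers T⟩, rfl⟩

lemma proj_surjective : Function.Surjective (proj Γ) := Quotient.mk''_surjective

/-- Pull back a function on orbits. -/
def pull : (Orb Γ → ℂ) →ₗ[ℂ] V Γ where
  toFun t := fun x => t (proj Γ x)
  map_add' _ _ := rfl
  map_smul' _ _ := rfl

@[simp] lemma pull_apply (t : Orb Γ → ℂ) (x : SL(2, ℤ) ⧸ Γ) : pull Γ t x = t (proj Γ x) := rfl

lemma pull_injective : Function.Injective (pull Γ) := by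
  intro t t' h
  funext o
  obtain ⟨x, rfl⟩ := proj_surjective Γ o
  exact congrFun h x

lemma R_T_pow_pull (t : Orb Γ → ℂ) (l : ℕ) : R Γ (T ^ l) (pull Γ t) = pull Γ t := by
  induction l with
  | zero => rw [pow_zero, R_one]
  | succ l ih =>
    rw [pow_succ, R_mul, ih]
    funext x
    simp [proj_T_smul]

lemma A_pull (t : Orb Γ → ℂ) : A Γ (pull Γ t) = (h0 Γ : ℂ) • pull Γ t := by
  rw [A_apply]
  simp only [R_T_pow_pull]
  rw [Finset.sum_const, Finset.card_range, Nat.cast_smul_eq_nsmul]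

/-- The total-sum functional on functions on orbits. -/
def ell : (Orb Γ → ℂ) →ₗ[ℂ] ℂ where
  toFun t := ∑ x, t (proj Γ x)
  map_add' t t' := by simp [Finset.sum_add_distrib]
  map_smul' c t := by simp [Finset.mul_sum]

lemma map_pull_ker_ell_le (hΓ : (-1 : SL(2, ℤ)) ∈ Γ) :
    Submodule.map (pull Γ) (LinearMap.ker (ell Γ)) ≤ LinearMap.range (kappa Γ) := by
  rintro _ ⟨t, ht, rfl⟩
  have ht' : ∑ x, t (proj Γ x) = 0 := ht
  have hh : ((h0 Γ : ℕ) : ℂ) ≠ 0 := Nat.cast_ne_zero.mpr (h0_pos Γ).ne'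
  have hu : ((h0 Γ : ℂ)⁻¹ • pull Γ t) ∈ Vm Γ ⊔ W Γ := by
    apply mem_sup_of_sum_eq_zero Γ hΓ
    simp only [Pi.smul_apply, pull_apply, smul_eq_mul, ← Finset.mul_sum, ht', mul_zero]
  obtain ⟨a, ha, b, hb, hab⟩ := Submodule.mem_sup.1 hu
  refine ⟨(⟨-a, Submodule.neg_mem _ ha⟩, ⟨b, hb⟩), ?_⟩
  rw [kappa_apply]
  simp only [sub_neg_eq_add]
  rw [add_comm, hab, map_smul, A_pull, smul_smul, inv_mul_cancel₀ hh, one_smul]

lemma card_orb_le (hΓ : (-1 : SL(2, ℤ)) ∈ Γ) :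
    Nat.card (Orb Γ) ≤ Module.finrank ℂ (LinearMap.range (kappa Γ)) + 1 := by
  haveI : Fintype (Orb Γ) := Fintype.ofFinite _
  have h1 := LinearMap.finrank_range_add_finrank_ker (ell Γ)
  rw [Module.finrank_fintype_fun_eq_card] at h1
  have h2 : Module.finrank ℂ (LinearMap.range (ell Γ)) ≤ 1 := by
    have := Submodule.finrank_le (LinearMap.range (ell Γ))
    simpa using this
  have h3 : Module.finrank ℂ (LinearMap.ker (ell Γ))
      = Module.finrank ℂ (Submodule.map (pull Γ) (LinearMap.ker (ell Γ))) :=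
    (Submodule.equivMapOfInjective (pull Γ) (pull_injective Γ) _).finrank_eq
  have h4 := Submodule.finrank_mono (map_pull_ker_ell_le Γ hΓ)
  rw [Nat.card_eq_fintype_card]
  omega

end PartT9


section PartT10


variable [Γ.FiniteIndex]

local instance : Fintype (SL(2, ℤ) ⧸ Γ) := Fintype.ofFinite _

open Classical in
lemma trace_R (g : SL(2, ℤ)) :
    LinearMap.trace ℂ (V Γ) (R Γ g) = (Nat.card (MulAction.fixedBy (SL(2, ℤ) ⧸ Γ) g) : ℂ) := by
  rw [LinearMap.trace_eq_matrix_trace ℂ (Pi.basisFun ℂ (SL(2, ℤ) ⧸ Γ)),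
    LinearMap.toMatrix_eq_toMatrix', Matrix.trace]
  simp only [Matrix.diag_apply, LinearMap.toMatrix'_apply, R_apply, Pi.single_apply]
  rw [Finset.sum_boole]
  congr 1
  rw [Nat.card_eq_fintype_card, Fintype.card_subtype]
  rfl

lemma finrank_V : Module.finrank ℂ (V Γ) = Nat.card (SL(2, ℤ) ⧸ Γ) := by
  rw [Module.finrank_fintype_fun_eq_card, Nat.card_eq_fintype_card]

lemma finrank_Vm (hΓ : (-1 : SL(2, ℤ)) ∈ Γ) :
    2 * Module.finrank ℂ (Vm Γ) + Nat.card (MulAction.fixedBy (SL(2, ℤ) ⧸ Γ) S)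
      = Nat.card (SL(2, ℤ) ⧸ Γ) := by
  have hproj : LinearMap.IsProj (Vm Γ) ((1 / 2 : ℂ) • (LinearMap.id - R Γ S)) := by
    refine ⟨fun v => ?_, fun v hv => ?_⟩
    · exact Submodule.smul_mem _ _ (sub_R_S_mem Γ hΓ v)
    · rw [mem_Vm] at hv
      have h1 : R Γ S v = -v := (eq_neg_of_add_eq_zero_right hv)
      simp only [LinearMap.smul_apply, LinearMap.sub_apply, LinearMap.id_apply, h1, sub_neg_eq_add]
      rw [← two_smul ℂ v, smul_smul]; norm_num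
  have ht := hproj.trace
  rw [map_smul, map_sub, LinearMap.trace_id, trace_R, finrank_V] at ht
  have h2 : ((Nat.card (SL(2, ℤ) ⧸ Γ) : ℕ) : ℂ)
      = 2 * (Module.finrank ℂ (Vm Γ) : ℂ) + (Nat.card (MulAction.fixedBy (SL(2, ℤ) ⧸ Γ) S) : ℂ) := by
    rw [← ht]; simp only [smul_eq_mul]; ring
  exact_mod_cast h2.symm

lemma fixedBy_U_sq (hΓ : (-1 : SL(2, ℤ)) ∈ Γ) :
    MulAction.fixedBy (SL(2, ℤ) ⧸ Γ) (S * T * (S * T)) = MulAction.fixedBy (SL(2, ℤ) ⧸ Γ) (S * T) := by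
  ext x
  simp only [MulAction.mem_fixedBy]
  constructor
  · intro h
    have hUUU : S * T * (S * T * (S * T)) = (-1 : SL(2, ℤ)) := by decide
    have h2 : (S * T) • ((S * T * (S * T)) • x) = x := by
      rw [← mul_smul, hUUU, neg_one_smul' Γ hΓ]
    rw [h] at h2
    exact h2
  · intro h
    rw [mul_smul, h, h]

/-- The projector onto `W`. -/
def eW : V Γ →ₗ[ℂ] V Γ :=
  LinearMap.id - (1 / 3 : ℂ) • (LinearMap.id + R Γ (S * T) + R Γ (S * T * (S * T)))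

lemma eW_apply (v : V Γ) :
    eW Γ v = v - (1 / 3 : ℂ) • (v + R Γ (S * T) v + R Γ (S * T) (R Γ (S * T) v)) := by
  simp only [eW, LinearMap.sub_apply, LinearMap.id_apply, LinearMap.smul_apply, LinearMap.add_apply]
  rw [R_mul Γ (S * T) (S * T)]

lemma finrank_W (hΓ : (-1 : SL(2, ℤ)) ∈ Γ) :
    3 * Module.finrank ℂ (W Γ) + 2 * Nat.card (MulAction.fixedBy (SL(2, ℤ) ⧸ Γ) (S * T))
      = 2 * Nat.card (SL(2, ℤ) ⧸ Γ) := by
  have hproj : LinearMap.IsProj (W Γ) (eW Γ) := by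
    refine ⟨fun v => ?_, fun v hv => ?_⟩
    · have h1 : eW Γ v
          = (1 / 3 : ℂ) • ((v - R Γ (S * T) v) + ((v - R Γ (S * T) v)
              + (R Γ (S * T) v - R Γ (S * T) (R Γ (S * T) v)))) := by
        rw [eW_apply]
        module
      rw [h1]
      refine Submodule.smul_mem _ _ (Submodule.add_mem _ (sub_R_U_mem Γ hΓ v)
        (Submodule.add_mem _ (sub_R_U_mem Γ hΓ v) (sub_R_U_mem Γ hΓ _)))
    · rw [mem_W] at hv
      rw [eW_apply, hv, smul_zero, sub_zero]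
  have ht := hproj.trace
  rw [eW, map_sub, map_smul, map_add, map_add, LinearMap.trace_id, trace_R, trace_R, finrank_V,
    fixedBy_U_sq Γ hΓ] at ht
  have h2 : 2 * ((Nat.card (SL(2, ℤ) ⧸ Γ) : ℕ) : ℂ)
      = 3 * (Module.finrank ℂ (W Γ) : ℂ)
        + 2 * (Nat.card (MulAction.fixedBy (SL(2, ℤ) ⧸ Γ) (S * T)) : ℂ) := by
    rw [← ht]; simp only [smul_eq_mul]; ring
  exact_mod_cast h2.symm

/-- **Group-theoretic bound** on the dimension of the space of parabolic homomorphisms. -/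
theorem finrank_parabolicHoms_le (hΓ : (-1 : SL(2, ℤ)) ∈ Γ) :
    6 * Module.finrank ℂ (parabolicHoms ℂ Γ ℂ)
      + 3 * Nat.card (MulAction.fixedBy (SL(2, ℤ) ⧸ Γ) S)
      + 4 * Nat.card (MulAction.fixedBy (SL(2, ℤ) ⧸ Γ) (S * T))
      + 6 * Nat.card (MulAction.orbitRel.Quotient (Subgroup.zpowers T) (SL(2, ℤ) ⧸ Γ))
      ≤ Nat.card (SL(2, ℤ) ⧸ Γ) + 12 := by
  have hdom : Module.finrank ℂ (parabolicHoms ℂ Γ ℂ × V Γ)
      = Module.finrank ℂ (parabolicHoms ℂ Γ ℂ) + Nat.card (SL(2, ℤ) ⧸ Γ) := by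
    rw [Module.finrank_prod, finrank_V]
  have hΘ := LinearMap.finrank_range_add_finrank_ker (Theta Γ hΓ)
  have hk := finrank_ker_Theta_le Γ hΓ
  have hr := Submodule.finrank_mono (range_Theta_le_ker_kappa Γ hΓ)
  have hκ := LinearMap.finrank_range_add_finrank_ker (kappa Γ)
  rw [Module.finrank_prod] at hκ
  have hc : Nat.card (MulAction.orbitRel.Quotient (Subgroup.zpowers T) (SL(2, ℤ) ⧸ Γ))
      ≤ Module.finrank ℂ (LinearMap.range (kappa Γ)) + 1 := card_orb_le Γ hΓ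
  have hVm := finrank_Vm Γ hΓ
  have hW := finrank_W Γ hΓ
  omega

end PartT10

end

end Fermat.Agent.S21.GroupBound
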