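import Mathlib

set_option autoImplicit false

namespace Fermat.Agent.S21.MaxPrinciple

open UpperHalfPlane Filter Topology Function
open scoped MatrixGroups Manifold

local notation "𝕢" => Periodic.qParam

/-- The Möbius map of an element of `SL(2, ℤ)` is holomorphic on the upper half plane. -/
theorem mdiff_comp_smul {E : ℍ → ℂ} (hE : MDiff E) (δ : SL(2, ℤ)) :
    MDiff (fun w : ℍ => E (δ • w)) := by
  have h1 : MDiff (fun τ : ℍ ↦ (δ : GL (Fin 2) ℝ) • τ) :=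
    mdifferentiable_smul (by simp)
  exact hE.comp h1

theorem periodic_comp_ofComplex_of_vadd {F : ℍ → ℂ} {h : ℝ}
    (hper : ∀ w : ℍ, F (h +ᵥ w) = F w) : Periodic (F ∘ ofComplex) h := by
  intro w
  by_cases! hw : 0 < Complex.im w
  · have hw' : 0 < Complex.im (w + h) := by simp [hw]
    simp only [comp_apply, ofComplex_apply_of_im_pos hw', ofComplex_apply_of_im_pos hw]
    rw [← hper ⟨w, hw⟩]
    congr 1
    ext
    simp [add_comm]
  · have hw' : Complex.im (w + h) ≤ 0 := by simpa using hw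
    simp [ofComplex_apply_of_im_nonpos hw', ofComplex_apply_of_im_nonpos hw]

/-- Maximum principle on a modular curve: a holomorphic function on the upper half plane whose
norm is invariant under a finite index subgroup of `SL(2, ℤ)`, and whose translates by all
elements of `SL(2, ℤ)` are `h`-periodic and bounded at infinity, is constant. -/
theorem const_of_norm_invariant {Γ : Subgroup SL(2, ℤ)} [Γ.FiniteIndex] {E : ℍ → ℂ} {h : ℝ}
    (hh : 0 < h) (hE : MDiff E)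
    (hinv : ∀ γ ∈ Γ, ∀ z : ℍ, ‖E (γ • z)‖ = ‖E z‖)
    (hper : ∀ (δ : SL(2, ℤ)) (w : ℍ), E (δ • (h +ᵥ w)) = E (δ • w))
    (hbdd : ∀ δ : SL(2, ℤ), IsBoundedAtImInfty (fun w : ℍ => E (δ • w))) :
    ∀ z : ℍ, E z = E I := by
  -- translates
  set Eδ : SL(2, ℤ) → ℍ → ℂ := fun δ w => E (δ • w) with hEδ
  have hperδ : ∀ δ, Periodic (Eδ δ ∘ ofComplex) h := fun δ =>
    periodic_comp_ofComplex_of_vadd (hper δ)
  have hholδ : ∀ δ, MDiff (Eδ δ) := fun δ => mdiff_comp_smul hE δ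
  set C : SL(2, ℤ) → ℂ → ℂ := fun δ => cuspFunction h (Eδ δ) with hC
  have hCdiff : ∀ δ, DifferentiableOn ℂ (C δ) (Metric.ball 0 1) := fun δ =>
    differentiableOn_cuspFunction_ball hh (hperδ δ) (hholδ δ) (hbdd δ)
  have hCeq : ∀ δ (w : ℍ), C δ (𝕢 h w) = E (δ • w) := fun δ w =>
    eq_cuspFunction w hh.ne' (hperδ δ)
  set r : ℝ := Real.exp (-Real.pi / h) with hr
  have hr0 : 0 ≤ r := (Real.exp_pos _).le
  have hr1 : r < 1 := by
    rw [hr, Real.exp_lt_one_iff]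
    exact div_neg_of_neg_of_pos (by simpa using Real.pi_pos) hh
  -- representatives
  set rep : SL(2, ℤ) ⧸ Γ → SL(2, ℤ) := fun x => (Quotient.out x)⁻¹ with hrep
  have hmax : ∀ x : SL(2, ℤ) ⧸ Γ, ∃ q ∈ Metric.closedBall (0 : ℂ) r,
      ∀ q' ∈ Metric.closedBall (0 : ℂ) r, ‖C (rep x) q'‖ ≤ ‖C (rep x) q‖ := by
    intro x
    obtain ⟨q, hq, hqmax⟩ := (isCompact_closedBall (0 : ℂ) r).exists_isMaxOn
      (Metric.nonempty_closedBall.mpr hr0)
      (((hCdiff (rep x)).continuousOn.mono (Metric.closedBall_subset_ball hr1)).norm)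
    exact ⟨q, hq, fun q' hq' => hqmax hq'⟩
  choose qx hqx hqxmax using hmax
  obtain ⟨x₀, hx₀⟩ := Finite.exists_max (fun x : SL(2, ℤ) ⧸ Γ => ‖C (rep x) (qx x)‖)
  have key : Set.EqOn (C (rep x₀)) (Function.const ℂ (C (rep x₀) 0)) (Metric.ball 0 1) := by
    refine Complex.eq_const_of_exists_le (hCdiff (rep x₀)) hr0 hr1 (fun q hq => ?_)
    refine ⟨qx x₀, hqx x₀, ?_⟩
    rcases eq_or_ne q 0 with rfl | hq0
    · exact hqxmax x₀ 0 (Metric.mem_closedBall_self hr0)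
    · have hqn : ‖q‖ < 1 := by simpa using hq
      set w : ℍ := ⟨Periodic.invQParam h q, Periodic.im_invQParam_pos_of_norm_lt_one hh hqn hq0⟩
        with hw
      have hqw : 𝕢 h w = q := Periodic.qParam_right_inv hh.ne' hq0
      obtain ⟨γ, hγ⟩ := ModularGroup.exists_one_half_le_im_smul (rep x₀ • w)
      set ξ : ℍ := γ • (rep x₀ • w) with hξ
      obtain ⟨g₁, hg₁⟩ := QuotientGroup.mk_out_eq_mul Γ γ
      obtain ⟨x, hx⟩ : ∃ x : SL(2, ℤ) ⧸ Γ, x = (QuotientGroup.mk γ : SL(2, ℤ) ⧸ Γ) := ⟨_, rfl⟩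
      have h1 : rep x • ξ = (g₁ : SL(2, ℤ))⁻¹ • (rep x₀ • w) := by
        show (Quotient.out x)⁻¹ • (γ • (rep x₀ • w)) = _
        rw [hx, hg₁, mul_inv_rev, mul_smul, inv_smul_smul]
      have h2 : ‖E (rep x • ξ)‖ = ‖E (rep x₀ • w)‖ := by
        rw [h1]; exact hinv _ (Γ.inv_mem g₁.2) _
      have h3 : 𝕢 h ξ ∈ Metric.closedBall (0 : ℂ) r := by
        rw [mem_closedBall_zero_iff, Periodic.norm_qParam, hr, Real.exp_le_exp]
        have : (1 : ℝ) / 2 ≤ (ξ : ℂ).im := hγ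
        rw [div_le_div_iff_of_pos_right hh]
        nlinarith [Real.pi_pos]
      calc ‖C (rep x₀) q‖ = ‖E (rep x₀ • w)‖ := by rw [← hqw, hCeq]
        _ = ‖C (rep x) (𝕢 h ξ)‖ := by rw [hCeq, h2]
        _ ≤ ‖C (rep x) (qx x)‖ := hqxmax x _ h3
        _ ≤ ‖C (rep x₀) (qx x₀)‖ := hx₀ x
  have hconst : ∀ w : ℍ, E (rep x₀ • w) = C (rep x₀) 0 := by
    intro w
    rw [← hCeq]
    exact key (by simpa using Periodic.norm_qParam_lt_one hh w.im_pos)
  intro z
  have h1 := hconst ((rep x₀)⁻¹ • z)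
  have h2 := hconst ((rep x₀)⁻¹ • I)
  rw [smul_inv_smul] at h1 h2
  rw [h1, h2]

end Fermat.Agent.S21.MaxPrinciple
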