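import Mathlib
import Fermat.Prelude.Def_ModularCurve_PeriodHomPair
import Fermat.Agent.S21.MaxPrinciple

set_option autoImplicit false

namespace Fermat.Agent.S21.Injective

open UpperHalfPlane Filter Topology Function CongruenceSubgroup ModularCurve ModularCurve.Period
open scoped MatrixGroups Manifold ComplexConjugate

/-- Holomorphic functions on the upper half plane which are `Γ₀(N)`-equivariant up to additive
constants and have limits at all cusps. -/
structure PeriodLike (N : ℕ) (G : ℍ → ℂ) : Prop where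
  holo : MDiff G
  equiv : IsEquivariantPrimitive (Gamma0 N) G
  lim : ∀ δ : SL(2, ℤ), ∃ L : ℂ, Tendsto (fun w : ℍ => G (δ • w)) atImInfty (𝓝 L)

theorem PeriodLike.of_primitive {N : ℕ} {f : CuspForm (Gamma0 N) 2} {F : ℍ → ℂ}
    (hF : HasEquivariantPrimitive N f F) : PeriodLike N F where
  holo := fun τ => mdifferentiableAt_iff.mpr (hF.1 τ).differentiableAt
  equiv := hF.2.2.1
  lim := hF.2.2.2

theorem PeriodLike.add {N : ℕ} {G₁ G₂ : ℍ → ℂ} (h₁ : PeriodLike N G₁) (h₂ : PeriodLike N G₂) :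
    PeriodLike N (fun z => G₁ z + G₂ z) where
  holo := by
    have e1 := UpperHalfPlane.mdifferentiable_iff.mp h₁.holo
    have e2 := UpperHalfPlane.mdifferentiable_iff.mp h₂.holo
    exact UpperHalfPlane.mdifferentiable_iff.mpr (e1.add e2)
  equiv := fun γ => by
    obtain ⟨c₁, hc₁⟩ := h₁.equiv γ
    obtain ⟨c₂, hc₂⟩ := h₂.equiv γ
    exact ⟨c₁ + c₂, fun z => by rw [← hc₁ z, ← hc₂ z]; ring⟩
  lim := fun δ => by
    obtain ⟨L₁, hL₁⟩ := h₁.lim δ
    obtain ⟨L₂, hL₂⟩ := h₂.lim δ
    exact ⟨L₁ + L₂, hL₁.add hL₂⟩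

theorem PeriodLike.const_mul {N : ℕ} {G : ℍ → ℂ} (c : ℂ) (h : PeriodLike N G) :
    PeriodLike N (fun z => c * G z) where
  holo := by
    have e1 := UpperHalfPlane.mdifferentiable_iff.mp h.holo
    exact UpperHalfPlane.mdifferentiable_iff.mpr (e1.const_mul c)
  equiv := fun γ => by
    obtain ⟨c₁, hc₁⟩ := h.equiv γ
    exact ⟨c * c₁, fun z => by rw [← hc₁ z]; ring⟩
  lim := fun δ => by
    obtain ⟨L₁, hL₁⟩ := h.lim δ
    exact ⟨c * L₁, hL₁.const_mul c⟩

theorem PeriodLike.sub {N : ℕ} {G₁ G₂ : ℍ → ℂ} (h₁ : PeriodLike N G₁) (h₂ : PeriodLike N G₂) :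
    PeriodLike N (fun z => G₁ z - G₂ z) := by
  have := h₁.add (h₂.const_mul (-1))
  simpa [sub_eq_add_neg] using this

/-- Conjugation by `J = diag(-1, 1)` on the upper half plane. -/
theorem J_smul_smul (γ : SL(2, ℤ)) (z : ℍ) :
    J • (γ • z) = (jConjSL γ) • (J • z) := by
  rw [ModularGroup.sl_moeb, ModularGroup.sl_moeb, ← mul_smul, ← mul_smul]
  congr 1
  ext i j
  fin_cases i <;> fin_cases j <;>
    simp [J, Matrix.mul_apply, Fin.sum_univ_two, jConjSL_coe, jConjMat]

theorem J_smul_J_smul (z : ℍ) : J • (J • z) = z := by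
  rw [← mul_smul, ← sq, J_sq, one_smul]

theorem tendsto_J_smul : Tendsto (fun w : ℍ => J • w) atImInfty atImInfty :=
  tendsto_smul_atImInfty (by simp [J])

theorem mdiff_star {G : ℍ → ℂ} (hG : MDiff G) : MDiff (fun z : ℍ => conj (G (J • z))) := by
  intro τ
  rw [mdifferentiableAt_iff]
  have h1 : DifferentiableAt ℂ (G ∘ ofComplex) ((J • τ : ℍ) : ℂ) :=
    mdifferentiableAt_iff.mp (hG (J • τ))
  have h2 : DifferentiableAt ℂ (fun z : ℂ => (G ∘ ofComplex) (-z)) (conj (τ : ℂ)) := by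
    have h2' : DifferentiableAt ℂ (G ∘ ofComplex) (-(conj (τ : ℂ))) := by
      rw [← coe_J_smul]; exact h1
    exact h2'.comp _ differentiableAt_id.neg
  have h3 := h2.conj_conj
  rw [Complex.conj_conj] at h3
  refine h3.congr_of_eventuallyEq ?_
  filter_upwards [isOpen_upperHalfPlaneSet.mem_nhds τ.im_pos] with z hz
  have hz' : 0 < (-(conj z)).im := by simpa using hz
  simp only [comp_apply]
  congr 2
  ext
  rw [coe_J_smul, ofComplex_apply_of_im_pos hz, ofComplex_apply_of_im_pos hz']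

theorem PeriodLike.star {N : ℕ} {G : ℍ → ℂ} (h : PeriodLike N G) :
    PeriodLike N (fun z => conj (G (J • z))) where
  holo := mdiff_star h.holo
  equiv := fun γ => by
    obtain ⟨c, hc⟩ := h.equiv (jConjGamma0 N γ)
    refine ⟨conj c, fun z => ?_⟩
    show conj (G (J • ((γ : SL(2, ℤ)) • z))) - conj (G (J • z)) = conj c
    rw [J_smul_smul, ← hc (J • z), map_sub]
    rfl
  lim := fun δ => by
    obtain ⟨L, hL⟩ := h.lim (jConjSL δ)
    refine ⟨conj L, ?_⟩
    have h1 : Tendsto (fun w : ℍ => G (jConjSL δ • (J • w))) atImInfty (𝓝 L) :=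
      hL.comp tendsto_J_smul
    have h2 := (Complex.continuous_conj.tendsto L).comp h1
    refine h2.congr (fun w => ?_)
    simp only [comp_apply, J_smul_smul]

theorem tendsto_vadd_atImInfty (x : ℝ) : Tendsto (fun w : ℍ => x +ᵥ w) atImInfty atImInfty := by
  simp only [atImInfty, tendsto_comap_iff, Function.comp_def, vadd_im]
  exact tendsto_comap

/-- `N`-periodicity at every cusp. -/
theorem PeriodLike.periodic {N : ℕ} {G : ℍ → ℂ} (hG : PeriodLike N G) (δ : SL(2, ℤ)) (w : ℍ) :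
    G (δ • ((N : ℝ) +ᵥ w)) = G (δ • w) := by
  have hmemΓ : ModularGroup.T ^ (N : ℤ) ∈ Gamma N := by
    simpa using ModularGroup_T_pow_mem_Gamma (N : ℤ) (N : ℤ) dvd_rfl
  have hmem : δ * ModularGroup.T ^ (N : ℤ) * δ⁻¹ ∈ Gamma0 N := by
    have h1 : δ * ModularGroup.T ^ (N : ℤ) * δ⁻¹ ∈ Gamma N :=
      (Gamma_normal N).conj_mem _ hmemΓ δ
    rw [Gamma_mem] at h1
    rw [Gamma0_mem]
    exact h1.2.2.1
  obtain ⟨c, hc⟩ := hG.equiv ⟨_, hmem⟩
  obtain ⟨L, hL⟩ := hG.lim δ
  have e : ∀ w : ℍ, δ • ((N : ℝ) +ᵥ w) = (δ * ModularGroup.T ^ (N : ℤ) * δ⁻¹) • (δ • w) := by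
    intro w
    rw [mul_smul, mul_smul, inv_smul_smul, modular_T_zpow_smul]
    simp
  have t1 : Tendsto (fun w : ℍ => G (δ • ((N : ℝ) +ᵥ w))) atImInfty (𝓝 L) :=
    hL.comp (tendsto_vadd_atImInfty _)
  have t2 : Tendsto (fun w : ℍ => G (δ • ((N : ℝ) +ᵥ w)) - G (δ • w)) atImInfty (𝓝 (L - L)) :=
    t1.sub hL
  have t3 : Tendsto (fun w : ℍ => G (δ • ((N : ℝ) +ᵥ w)) - G (δ • w)) atImInfty (𝓝 c) := by
    refine tendsto_const_nhds.congr (fun w => ?_)
    rw [e w]; exact (hc (δ • w)).symm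
  have hc0 : c = 0 := by
    have := tendsto_nhds_unique t3 t2
    simpa using this
  have := hc (δ • w)
  rw [hc0, sub_eq_zero] at this
  rw [e w]; exact this

/-- A period-like function all of whose periods are purely imaginary is constant. -/
theorem PeriodLike.eq_const {N : ℕ} [NeZero N] {G : ℍ → ℂ} (hG : PeriodLike N G)
    (hre : ∀ (γ : Gamma0 N) (z : ℍ), (G ((γ : SL(2, ℤ)) • z) - G z).re = 0) :
    ∀ z : ℍ, G z = G I := by
  have hNpos : (0 : ℝ) < (N : ℝ) := by exact_mod_cast Nat.pos_of_ne_zero (NeZero.ne N)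
  have hgdiff : DifferentiableOn ℂ (G ∘ ofComplex) {z : ℂ | 0 < z.im} :=
    UpperHalfPlane.mdifferentiable_iff.mp hG.holo
  have hE : MDiff (fun z : ℍ => Complex.exp (G z)) :=
    UpperHalfPlane.mdifferentiable_iff.mpr hgdiff.cexp
  have hexp : ∀ z : ℍ, Complex.exp (G z) = Complex.exp (G I) := by
    refine MaxPrinciple.const_of_norm_invariant (Γ := Gamma0 N) hNpos hE ?_ ?_ ?_
    · intro γ hγ z
      have := hre ⟨γ, hγ⟩ z
      rw [Complex.sub_re, sub_eq_zero] at this
      simp only [Complex.norm_exp]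
      rw [this]
    · intro δ w
      rw [hG.periodic δ w]
    · intro δ
      obtain ⟨L, hL⟩ := hG.lim δ
      have := (Complex.continuous_exp.tendsto L).comp hL
      exact this.isBigO_one ℝ
  -- derivative of `G` vanishes
  have hderiv : Set.EqOn (deriv (G ∘ ofComplex)) 0 {z : ℂ | 0 < z.im} := by
    intro z hz
    have hd : DifferentiableAt ℂ (G ∘ ofComplex) z :=
      (hgdiff z hz).differentiableAt (isOpen_upperHalfPlaneSet.mem_nhds hz)
    have h1 : HasDerivAt (fun y => Complex.exp ((G ∘ ofComplex) y))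
        (Complex.exp ((G ∘ ofComplex) z) * deriv (G ∘ ofComplex) z) z :=
      hd.hasDerivAt.cexp
    have h2 : HasDerivAt (fun y => Complex.exp ((G ∘ ofComplex) y)) 0 z := by
      refine (hasDerivAt_const z (Complex.exp (G I))).congr_of_eventuallyEq ?_
      filter_upwards [isOpen_upperHalfPlaneSet.mem_nhds hz] with y hy
      simp only [comp_apply]
      exact hexp _
    have h3 := h1.unique h2
    simpa [Complex.exp_ne_zero] using h3
  intro z
  have hconn : IsPreconnected {z : ℂ | 0 < z.im} := (convex_halfSpace_im_gt 0).isPreconnected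
  have := isOpen_upperHalfPlaneSet.is_const_of_deriv_eq_zero hconn hgdiff hderiv
    (x := (z : ℂ)) (y := ((I : ℍ) : ℂ)) z.im_pos (I : ℍ).im_pos
  simp only [comp_apply, ofComplex_apply] at this
  exact this

/-- Core injectivity statement for the Eichler–Shimura pairing. -/
theorem eq_zero_of_period_relation {N : ℕ} [NeZero N] {f g : CuspForm (Gamma0 N) 2}
    {A B : ℍ → ℂ} (hA : HasEquivariantPrimitive N f A) (hB : HasEquivariantPrimitive N g B)
    (hrel : ∀ γ : Gamma0 N,
      hA.2.2.1.period γ + hA.2.2.1.period (jConjGamma0 N γ)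
        + (hB.2.2.1.period γ - hB.2.2.1.period (jConjGamma0 N γ)) = 0) :
    f = 0 ∧ g = 0 := by
  have PA := PeriodLike.of_primitive hA
  have PB := PeriodLike.of_primitive hB
  have PH := PA.add PB
  have PD := PA.sub PB
  have PK := PD.star
  have P1 := PH.add PK
  have P2 := (PH.sub PK).const_mul Complex.I
  -- period computations
  have hHper : ∀ (γ : Gamma0 N) (z : ℍ), (A ((γ : SL(2, ℤ)) • z) + B ((γ : SL(2, ℤ)) • z))
      - (A z + B z) = hA.2.2.1.period γ + hB.2.2.1.period γ := by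
    intro γ z
    rw [← hA.2.2.1.sub_eq_period γ z, ← hB.2.2.1.sub_eq_period γ z]; ring
  have hKper : ∀ (γ : Gamma0 N) (z : ℍ),
      conj (A (J • ((γ : SL(2, ℤ)) • z)) - B (J • ((γ : SL(2, ℤ)) • z)))
        - conj (A (J • z) - B (J • z))
      = conj (hA.2.2.1.period (jConjGamma0 N γ) - hB.2.2.1.period (jConjGamma0 N γ)) := by
    intro γ z
    rw [J_smul_smul, ← hA.2.2.1.sub_eq_period (jConjGamma0 N γ) (J • z),
      ← hB.2.2.1.sub_eq_period (jConjGamma0 N γ) (J • z), ← map_sub]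
    congr 1
    simp only [jConjGamma0_coe]
    ring
  have hrel' : ∀ γ : Gamma0 N, hA.2.2.1.period γ + hB.2.2.1.period γ
      = -(hA.2.2.1.period (jConjGamma0 N γ) - hB.2.2.1.period (jConjGamma0 N γ)) := by
    intro γ
    linear_combination hrel γ
  have c1 := P1.eq_const (by
    intro γ z
    have e : (A ((γ : SL(2, ℤ)) • z) + B ((γ : SL(2, ℤ)) • z)
          + conj (A (J • ((γ : SL(2, ℤ)) • z)) - B (J • ((γ : SL(2, ℤ)) • z))))
        - (A z + B z + conj (A (J • z) - B (J • z)))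
        = -(hA.2.2.1.period (jConjGamma0 N γ) - hB.2.2.1.period (jConjGamma0 N γ))
          + conj (hA.2.2.1.period (jConjGamma0 N γ) - hB.2.2.1.period (jConjGamma0 N γ)) := by
      rw [← hKper γ z, ← hrel' γ, ← hHper γ z]; ring
    rw [e]
    generalize hA.2.2.1.period (jConjGamma0 N γ) - hB.2.2.1.period (jConjGamma0 N γ) = d
    simp)
  have c2 := P2.eq_const (by
    intro γ z
    have e : Complex.I * (A ((γ : SL(2, ℤ)) • z) + B ((γ : SL(2, ℤ)) • z)
          - conj (A (J • ((γ : SL(2, ℤ)) • z)) - B (J • ((γ : SL(2, ℤ)) • z))))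
        - Complex.I * (A z + B z - conj (A (J • z) - B (J • z)))
        = Complex.I * (-(hA.2.2.1.period (jConjGamma0 N γ) - hB.2.2.1.period (jConjGamma0 N γ))
          - conj (hA.2.2.1.period (jConjGamma0 N γ) - hB.2.2.1.period (jConjGamma0 N γ))) := by
      rw [← hKper γ z, ← hrel' γ, ← hHper γ z]; ring
    rw [e]
    generalize hA.2.2.1.period (jConjGamma0 N γ) - hB.2.2.1.period (jConjGamma0 N γ) = d
    simp)
  -- `H` and `K` are constant
  have hH : ∀ z : ℍ, A z + B z = A I + B I := by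
    intro z
    have e1 := c1 z
    have e2 := c2 z
    have e3 : A z + B z - conj (A (J • z) - B (J • z))
        = A I + B I - conj (A (J • I) - B (J • I)) :=
      mul_left_cancel₀ Complex.I_ne_zero e2
    linear_combination (1 / 2 : ℂ) * e1 + (1 / 2 : ℂ) * e3
  have hK : ∀ z : ℍ, conj (A (J • z) - B (J • z)) = conj (A (J • I) - B (J • I)) := by
    intro z
    have e1 := c1 z
    have e2 := hH z
    linear_combination e1 - e2
  have hD : ∀ z : ℍ, A z - B z = A (J • I) - B (J • I) := by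
    intro z
    have := hK (J • z)
    rw [J_smul_J_smul] at this
    exact (starRingEnd ℂ).injective this
  -- derivatives
  have hsum : ∀ τ : ℍ, f τ + g τ = 0 := by
    intro τ
    have h1 : HasDerivAt (fun y => (A ∘ ofComplex) y + (B ∘ ofComplex) y) (f τ + g τ) τ :=
      (hA.1 τ).add (hB.1 τ)
    have h2 : HasDerivAt (fun y => (A ∘ ofComplex) y + (B ∘ ofComplex) y) 0 τ := by
      refine (hasDerivAt_const (τ : ℂ) (A I + B I)).congr_of_eventuallyEq ?_
      filter_upwards [isOpen_upperHalfPlaneSet.mem_nhds τ.im_pos] with y hy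
      simp only [comp_apply]
      exact hH _
    exact h1.unique h2
  have hdiff : ∀ τ : ℍ, f τ - g τ = 0 := by
    intro τ
    have h1 : HasDerivAt (fun y => (A ∘ ofComplex) y - (B ∘ ofComplex) y) (f τ - g τ) τ :=
      (hA.1 τ).sub (hB.1 τ)
    have h2 : HasDerivAt (fun y => (A ∘ ofComplex) y - (B ∘ ofComplex) y) 0 τ := by
      refine (hasDerivAt_const (τ : ℂ) (A (J • I) - B (J • I))).congr_of_eventuallyEq ?_
      filter_upwards [isOpen_upperHalfPlaneSet.mem_nhds τ.im_pos] with y hy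
      simp only [comp_apply]
      exact hD _
    exact h1.unique h2
  constructor
  · ext τ
    have e1 := hsum τ
    have e2 := hdiff τ
    show f τ = 0
    linear_combination (1 / 2 : ℂ) * e1 + (1 / 2 : ℂ) * e2
  · ext τ
    have e1 := hsum τ
    have e2 := hdiff τ
    show g τ = 0
    linear_combination (1 / 2 : ℂ) * e1 - (1 / 2 : ℂ) * e2

/-- Injectivity of the Eichler–Shimura pairing, given existence of primitives and linearity of the
period map. -/
theorem periodHomPair_injective (N : ℕ) [NeZero N]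
    (hex : ∀ f : CuspForm (Gamma0 N) 2, ∃ F : ℍ → ℂ, HasEquivariantPrimitive N f F)
    (hlin : ExistsPeriodMapLinear N) : Function.Injective (periodHomPair N) := by
  obtain ⟨pml, hpml, hdef⟩ := periodHomPair_def N hlin
  rw [injective_iff_map_eq_zero]
  rintro ⟨f, g⟩ hfg
  obtain ⟨A₀, hA₀⟩ := hex f
  obtain ⟨B₀, hB₀⟩ := hex g
  obtain ⟨A, hA, hPA⟩ := periodMap_def N f hA₀
  obtain ⟨B, hB, hPB⟩ := periodMap_def N g hB₀
  have key := eq_zero_of_period_relation hA hB (by
    intro γ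
    have h1 := congrArg (fun ψ : Additive (Gamma0 N) →+ ℂ => ψ (Additive.ofMul γ)) hfg
    simp only [hdef, LinearMap.coprod_apply, LinearMap.comp_apply, hpml, hPA, hPB,
      LinearMap.add_apply, LinearMap.sub_apply, LinearMap.id_apply, AddMonoidHom.add_apply,
      AddMonoidHom.sub_apply, charInvolution_apply, IsEquivariantPrimitive.periodHom_apply,
      AddMonoidHom.zero_apply, toMul_ofMul] at h1
    exact h1)
  rw [key.1, key.2]
  rfl

end Fermat.Agent.S21.Injective
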