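import Mathlib
import Fermat.Prelude.Def_ModularCurve_PeriodHomPair
import Fermat.Prelude.Def_ModularCurve_GenusNumerics
import Fermat.Agent.S21.PeriodMap
import Fermat.Agent.S21.Injective

set_option autoImplicit false

open CongruenceSubgroup ModularCurve ModularCurve.Period
open scoped MatrixGroups

namespace Fermat.Agent.S21

variable (N : ℕ) [NeZero N]

/-- The Eichler–Shimura pairing is injective. -/
theorem periodHomPair_injective : Function.Injective (periodHomPair N) :=
  Injective.periodHomPair_injective N (exists_primitive N) (existsPeriodMapLinear N)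

/-- The range of the Eichler–Shimura pairing consists of parabolic homomorphisms. -/
theorem range_periodHomPair_le :
    LinearMap.range (periodHomPair N) ≤ parabolicHoms ℂ (Gamma0 N) ℂ := by
  rintro _ ⟨⟨f, g⟩, rfl⟩
  rw [periodHomPair_apply]
  have hf := periodMap_mem_parabolicHoms N f
  have hg := periodMap_mem_parabolicHoms N g
  exact Submodule.add_mem _
    (Submodule.add_mem _ hf (charInvolution_mem_parabolicHoms N ℂ ℂ hf))
    (Submodule.sub_mem _ hg (charInvolution_mem_parabolicHoms N ℂ ℂ hg))

/-- Eichler–Shimura from the dimension inequality `dim Hom_par ≤ 2 dim S₂`. -/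
theorem result_of_finrank_le
    (hfin : Module.Finite ℂ (parabolicHoms ℂ (Gamma0 N) ℂ))
    (hle : Module.finrank ℂ (parabolicHoms ℂ (Gamma0 N) ℂ)
      ≤ 2 * Module.finrank ℂ (CuspForm (Gamma0 N) 2)) :
    Function.Injective (periodHomPair N)
      ∧ LinearMap.range (periodHomPair N) = parabolicHoms ℂ (Gamma0 N) ℂ := by
  have hinj := periodHomPair_injective N
  have hrange := range_periodHomPair_le N
  refine ⟨hinj, ?_⟩
  -- the source is finite-dimensional since it injects into the finite-dimensional `parabolicHoms`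
  let φ : (CuspForm (Gamma0 N) 2 × CuspForm (Gamma0 N) 2) →ₗ[ℂ] parabolicHoms ℂ (Gamma0 N) ℂ :=
    (periodHomPair N).codRestrict _ (fun x => hrange ⟨x, rfl⟩)
  have hφ : Function.Injective φ := fun x y hxy => hinj (congrArg Subtype.val hxy)
  have : FiniteDimensional ℂ (CuspForm (Gamma0 N) 2 × CuspForm (Gamma0 N) 2) :=
    FiniteDimensional.of_injective φ hφ
  have : FiniteDimensional ℂ (CuspForm (Gamma0 N) 2) :=
    FiniteDimensional.of_injective (LinearMap.inl ℂ _ (CuspForm (Gamma0 N) 2)) LinearMap.inl_injective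
  have hdim : Module.finrank ℂ (LinearMap.range (periodHomPair N))
      = 2 * Module.finrank ℂ (CuspForm (Gamma0 N) 2) := by
    rw [LinearMap.finrank_range_of_inj hinj, Module.finrank_prod, two_mul]
  exact Submodule.eq_of_le_of_finrank_le hrange (by rw [hdim]; exact hle)

/-- Eichler–Shimura from the dimension formula for `S₂(Γ₀(N))` (statement S20) and the bound
`dim Hom_par ≤ 2 g` on the group side. -/
theorem result_of_genusFormula
    (hS20 : (Module.finrank ℂ (CuspForm (Gamma0 N) 2) : ℚ) = ModularCurve.genusFormula N)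
    (hfin : Module.Finite ℂ (parabolicHoms ℂ (Gamma0 N) ℂ))
    (hbound : (Module.finrank ℂ (parabolicHoms ℂ (Gamma0 N) ℂ) : ℚ)
      ≤ 2 * ModularCurve.genusFormula N) :
    Function.Injective (periodHomPair N)
      ∧ LinearMap.range (periodHomPair N) = parabolicHoms ℂ (Gamma0 N) ℂ := by
  refine result_of_finrank_le N hfin ?_
  have h : (Module.finrank ℂ (parabolicHoms ℂ (Gamma0 N) ℂ) : ℚ)
      ≤ ((2 * Module.finrank ℂ (CuspForm (Gamma0 N) 2) : ℕ) : ℚ) := by
    push_cast
    rw [hS20]
    exact hbound
  exact_mod_cast h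

/-- Same, with the group-side bound in the integral shape
`6 dim Hom_par + 3 ν₂ + 4 ν₃ + 6 c ≤ ψ(N) + 12`. -/
theorem result_of_genusFormula_of_counts
    (hS20 : (Module.finrank ℂ (CuspForm (Gamma0 N) 2) : ℚ) = ModularCurve.genusFormula N)
    (hfin : Module.Finite ℂ (parabolicHoms ℂ (Gamma0 N) ℂ))
    (hbound : 6 * Module.finrank ℂ (parabolicHoms ℂ (Gamma0 N) ℂ) + 3 * ModularCurve.nuTwo N
      + 4 * ModularCurve.nuThree N + 6 * ModularCurve.cuspCount N
      ≤ ModularCurve.dedekindPsi N + 12) :
    Function.Injective (periodHomPair N)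
      ∧ LinearMap.range (periodHomPair N) = parabolicHoms ℂ (Gamma0 N) ℂ := by
  refine result_of_genusFormula N hS20 hfin ?_
  have h : ((6 * Module.finrank ℂ (parabolicHoms ℂ (Gamma0 N) ℂ) + 3 * ModularCurve.nuTwo N
      + 4 * ModularCurve.nuThree N + 6 * ModularCurve.cuspCount N : ℕ) : ℚ)
      ≤ ((ModularCurve.dedekindPsi N + 12 : ℕ) : ℚ) := by exact_mod_cast hbound
  push_cast at h
  unfold ModularCurve.genusFormula
  linarith

end Fermat.Agent.S21
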