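import Mathlib
import Fermat.Prelude.Def_ModularCurve_PeriodMap
import Fermat.Prelude.Def_ModularCurve_GenusNumerics
import Fermat.Agent.S21.GroupBound

set_option autoImplicit false

open scoped MatrixGroups
open ModularCurve ModularCurve.Period ModularGroup CongruenceSubgroup

namespace Fermat.Agent.S21.GroupBound

lemma neg_one_mem_Gamma0 (N : ℕ) : (-1 : SL(2, ℤ)) ∈ Gamma0 N := by
  rw [Gamma0_mem]
  simp

/-- The group-theoretic bound for `Γ₀(N)`, conditional on the four coset counts. -/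
theorem finrank_parabolicHoms_Gamma0_le (N : ℕ) [NeZero N]
    (hindex : (Gamma0 N).index = dedekindPsi N)
    (hS : Nat.card (MulAction.fixedBy (SL(2, ℤ) ⧸ Gamma0 N) S) = nuTwo N)
    (hU : Nat.card (MulAction.fixedBy (SL(2, ℤ) ⧸ Gamma0 N) (S * T)) = nuThree N)
    (hT : Nat.card (MulAction.orbitRel.Quotient (Subgroup.zpowers T) (SL(2, ℤ) ⧸ Gamma0 N))
      = cuspCount N) :
    (Module.finrank ℂ (parabolicHoms ℂ (Gamma0 N) ℂ) : ℚ) ≤ 2 * genusFormula N := by
  have h := finrank_parabolicHoms_le (Gamma0 N) (neg_one_mem_Gamma0 N)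
  rw [hS, hU, hT, ← Subgroup.index_eq_card, hindex] at h
  have h' : (6 * (Module.finrank ℂ (parabolicHoms ℂ (Gamma0 N) ℂ) : ℚ) + 3 * (nuTwo N : ℚ)
      + 4 * (nuThree N : ℚ) + 6 * (cuspCount N : ℚ)) ≤ (dedekindPsi N : ℚ) + 12 := by
    exact_mod_cast h
  unfold genusFormula
  linarith

end Fermat.Agent.S21.GroupBound
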