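import Mathlib
import Fermat.Agent.Lib.Gamma0Counts
import Fermat.Agent.S21.GroupBoundGamma0
import Fermat.Agent.S21.Assembly

set_option autoImplicit false

open CongruenceSubgroup ModularCurve ModularCurve.Period
open scoped MatrixGroups

namespace Fermat.Agent.S21

variable (N : ℕ) [NeZero N]

/-- The group-theoretic bound `dim Hom_par(Γ₀(N), ℂ) ≤ 2 g(N)`, unconditionally. -/
theorem finrank_parabolicHoms_Gamma0_le_genus :
    (Module.finrank ℂ (parabolicHoms ℂ (Gamma0 N) ℂ) : ℚ) ≤ 2 * genusFormula N :=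
  GroupBound.finrank_parabolicHoms_Gamma0_le N
    (Fermat.Agent.Lib.Gamma0Counts.index_Gamma0 N)
    (Fermat.Agent.Lib.Gamma0Counts.card_fixedBy_S N)
    (Fermat.Agent.Lib.Gamma0Counts.card_fixedBy_ST N)
    (Fermat.Agent.Lib.Gamma0Counts.card_orbits_T N)

/-- `S₂(Γ₀(N))` is finite-dimensional of dimension at most the genus formula
(the upper half of the dimension formula, via Eichler–Shimura injectivity). -/
theorem finrank_cuspForm_le_genus :
    Module.Finite ℂ (CuspForm (Gamma0 N) 2)
      ∧ (Module.finrank ℂ (CuspForm (Gamma0 N) 2) : ℚ) ≤ genusFormula N := by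
  have hinj := periodHomPair_injective N
  have hrange := range_periodHomPair_le N
  let φ : (CuspForm (Gamma0 N) 2 × CuspForm (Gamma0 N) 2) →ₗ[ℂ] parabolicHoms ℂ (Gamma0 N) ℂ :=
    (periodHomPair N).codRestrict _ (fun x => hrange ⟨x, rfl⟩)
  have hφ : Function.Injective φ := fun x y hxy => hinj (congrArg Subtype.val hxy)
  have h1 : FiniteDimensional ℂ (CuspForm (Gamma0 N) 2 × CuspForm (Gamma0 N) 2) :=
    FiniteDimensional.of_injective φ hφ
  have h2 : FiniteDimensional ℂ (CuspForm (Gamma0 N) 2) :=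
    FiniteDimensional.of_injective (LinearMap.inl ℂ _ (CuspForm (Gamma0 N) 2)) LinearMap.inl_injective
  refine ⟨h2, ?_⟩
  have h3 := LinearMap.finrank_le_finrank_of_injective hφ
  rw [Module.finrank_prod] at h3
  have h4 := finrank_parabolicHoms_Gamma0_le_genus N
  have h5 : ((Module.finrank ℂ (CuspForm (Gamma0 N) 2) + Module.finrank ℂ (CuspForm (Gamma0 N) 2) : ℕ) : ℚ)
      ≤ (Module.finrank ℂ (parabolicHoms ℂ (Gamma0 N) ℂ) : ℚ) := by exact_mod_cast h3
  push_cast at h5
  linarith

/-- Eichler–Shimura (statement S21) from the dimension formula (statement S20);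
in fact only the lower bound `g(N) ≤ dim S₂(Γ₀(N))` is needed. -/
theorem result_of_genus_le
    (hS20 : genusFormula N ≤ (Module.finrank ℂ (CuspForm (Gamma0 N) 2) : ℚ)) :
    Function.Injective (periodHomPair N)
      ∧ LinearMap.range (periodHomPair N) = parabolicHoms ℂ (Gamma0 N) ℂ :=
  result_of_genusFormula N (le_antisymm (finrank_cuspForm_le_genus N).2 hS20)
    (GroupBound.finite_parabolicHoms (Gamma0 N)) (finrank_parabolicHoms_Gamma0_le_genus N)

end Fermat.Agent.S21
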